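import Fermat.Agent.MazurStep.Global.MeroConj
import Fermat.Agent.GalRep.DatumJZero

/-!
# Complex conjugation on the torsion of `J₀(N)` in lattice coordinates

Complex conjugation acts by minus the integral matrix of the involution `φ ↦ φ (ε · ε)`,
`ε = diag(-1, 1)`, which exchanges the two halves of `periodHomPair`.
-/

set_option autoImplicit false

noncomputable section

open AlgebraicCurve ModularCurve CongruenceSubgroup Matrix
open scoped ComplexConjugate MatrixGroups

namespace Fermat.Agent.MazurStep.Global

open Fermat.Agent.Kummer Fermat.Agent.Cosets Fermat.Agent.GalRep Fermat.Agent.Periods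
open ModularCurve.Period (jConjSL jConjGamma0 charInvolution)
open Fermat.Agent.MFGenus (FL)

local notation "ℚbar" => AlgebraicClosure ℚ
local notation "Γℚbar" => AlgebraicClosure ℚ ≃ₐ[ℚ] AlgebraicClosure ℚ

/-! ### Complex conjugation of algebraic numbers -/

/-- Complex conjugation induces an automorphism of `ℚ̄`. -/
theorem exists_conjBar : ∃ c : Γℚbar, ∀ a, ιbar (c a) = conj (ιbar a) := by
  have hex : ∀ a : ℚbar, ∃ b, ιbar b = conj (ιbar a) := fun a =>
    exists_ιbar_eq (((isAlgebraic_qbar.isAlgebraic a).algHom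
      (ιbar.toRatAlgHom)).algHom (Complex.conjAe.toAlgHom.restrictScalars ℚ))
  choose g hg using hex
  let c₀ : ℚbar →+* ℚbar :=
    { toFun := g
      map_one' := ιbar.injective (by rw [hg, map_one, map_one])
      map_mul' := fun a b => ιbar.injective (by rw [hg, map_mul, map_mul, map_mul, hg, hg])
      map_zero' := ιbar.injective (by rw [hg, map_zero, map_zero])
      map_add' := fun a b => ιbar.injective (by rw [hg, map_add, map_add, map_add, hg, hg]) }
  have hinv : ∀ a, c₀ (c₀ a) = a := fun a => ιbar.injective (by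
    show ιbar (g (g a)) = ιbar a
    rw [hg, hg, Complex.conj_conj])
  let e : ℚbar ≃+* ℚbar := RingEquiv.ofRingHom c₀ c₀ (RingHom.ext hinv) (RingHom.ext hinv)
  exact ⟨AlgEquiv.ofRingEquiv (f := e) fun q => RingHom.congr_fun
    (Subsingleton.elim (e.toRingHom.comp (algebraMap ℚ ℚbar)) (algebraMap ℚ ℚbar)) q, hg⟩

/-- Complex conjugation on `ℚ̄`. -/
def conjBar : Γℚbar := exists_conjBar.choose

theorem ιbar_conjBar (a : ℚbar) : ιbar (conjBar a) = conj (ιbar a) :=
  exists_conjBar.choose_spec a

variable (N : ℕ) [NeZero N]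

omit [NeZero N] in
/-- Conjugation on meromorphic functions is the Galois action of `conjBar` on the function field. -/
theorem conjMero_embed (x : FL ℚbar N) :
    conjMero (embed ιbar N x) =
      embed ιbar N (arithmeticGalois (modularFunctionFieldFull N) conjBar • x) := by
  let e₂ : FL ℚbar N →+* MeroH := (embed ιbar N).comp
    (MulSemiringAction.toRingHom _ (FL ℚbar N)
      (arithmeticGalois (modularFunctionFieldFull N) conjBar))
  have key : ∀ y : LaurentSeries ℚbar,
      y ∈ laurentBaseChange ℚbar (modularFunctionFieldFull N) →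
      ∃ z : FL ℚbar N, (z : LaurentSeries ℚbar) = y ∧ conjMero (embed ιbar N z) = e₂ z := by
    let T : Subfield (LaurentSeries ℚbar) :=
      (RingHom.eqLocusField (conjMero.comp (embed ιbar N)) e₂).map
        (FL ℚbar N).toSubfield.subtype
    suffices h : ∀ y, y ∈ laurentBaseChange ℚbar (modularFunctionFieldFull N) → y ∈ T by
      intro y hy
      obtain ⟨z, hz, rfl⟩ := Subfield.mem_map.1 (h y hy)
      exact ⟨z, rfl, hz⟩
    intro y hy
    rw [mem_laurentBaseChange_iff] at hy
    refine (Subfield.closure_le (t := T)).2 ?_ hy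
    rintro _ (⟨c, rfl⟩ | ⟨w, hw, rfl⟩)
    · refine Subfield.mem_map.2 ⟨algebraMap ℚbar (FL ℚbar N) c, ?_, rfl⟩
      show conjMero (embed ιbar N _) = e₂ _
      simp only [e₂, RingHom.comp_apply, MulSemiringAction.toRingHom_apply]
      rw [SemilinearAut.smul_algebraMap, embed_algebraMap, embed_algebraMap, conjMero_const,
        ← ιbar_conjBar]
      rfl
    · change w ∈ modularFunctionFieldFull N at hw
      rw [modularFunctionFieldFull, ← IntermediateField.mem_toSubfield,
        IntermediateField.adjoin_toSubfield] at hw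
      have hw' := (Subfield.closure_le (t := T.comap (coeffEmb ℚbar))).2 ?_ hw
      · exact hw'
      rintro _ (⟨r, rfl⟩ | ⟨d, hd, hdN, rfl⟩)
      · rw [SetLike.mem_coe, Subfield.mem_comap]
        have : coeffEmb ℚbar (algebraMap ℚ (LaurentSeries ℚ) r) =
            algebraMap ℚbar (LaurentSeries ℚbar) (algebraMap ℚ ℚbar r) := by
          simp [coeffEmb]
        rw [this]
        refine Subfield.mem_map.2 ⟨algebraMap ℚbar (FL ℚbar N) (algebraMap ℚ ℚbar r), ?_, rfl⟩
        show conjMero (embed ιbar N _) = e₂ _
        simp only [e₂, RingHom.comp_apply, MulSemiringAction.toRingHom_apply]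
        rw [SemilinearAut.smul_algebraMap, embed_algebraMap, embed_algebraMap, conjMero_const,
          ← ιbar_conjBar]
        rfl
      · rw [SetLike.mem_coe, Subfield.mem_comap]
        let z : FL ℚbar N := ⟨coeffEmb ℚbar (qExpand ℚ d jq),
          coeffEmb_mem_laurentBaseChange ℚbar (jqd_mem_full N hdN)⟩
        refine Subfield.mem_map.2 ⟨z, ?_, rfl⟩
        have hz : arithmeticGalois (modularFunctionFieldFull N) conjBar • z = z := by
          apply Subtype.ext
          rw [coe_arithmeticGalois_smul]
          show coeffMap _ (coeffEmb ℚbar _) = coeffEmb ℚbar _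
          rw [coeffEmb, coeffMap_coeffMap]
          exact coeffMap_congr (RingHom.ext_rat _ _) _
        show conjMero (embed ιbar N z) = e₂ z
        simp only [e₂, RingHom.comp_apply, MulSemiringAction.toRingHom_apply]
        rw [hz, embed_jq ιbar d hdN, conjMero_jScale]
  obtain ⟨z, hz, he⟩ := key _ x.2
  rw [Subtype.ext hz] at he
  exact he

variable (n : ℕ) [NeZero n]

omit [NeZero N] in
theorem conj_zeta (a : ZMod n) : conj (zeta a) = zeta (-a) := by
  have h : conj (zeta a) = (zeta a)⁻¹ :=
    (Complex.inv_eq_conj (Complex.norm_eq_one_of_pow_eq_one (zeta_pow_self a) (NeZero.ne n))).symm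
  rw [h]
  refine inv_eq_of_mul_eq_one_right ?_
  rw [← zeta_add, add_neg_cancel, zeta_zero]

variable {N n}

omit [NeZero N] in
/-- The multiplier of the conjugate class. -/
theorem isKummer_conjBar {x : JZero N} {φ : Additive (Gamma0 N) →+ ZMod n}
    (h : IsKummer ιbar x φ) :
    IsKummer ιbar (conjBar • x) (-(charInvolution N (ZMod n) (ZMod n) φ)) := by
  obtain ⟨D, f, G, rfl, hf, hD, hG, hGφ⟩ := h
  set g := arithmeticGalois (modularFunctionFieldFull N) conjBar with hg
  refine ⟨SemilinearAut.degZeroSMulHom g D, g • f, conjMero G, ?_, (smul_ne_zero_iff_ne g).2 hf,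
    fun v => ?_, ?_, fun γ => ?_⟩
  · exact (SemilinearAut.pic0_smul_mk g D).symm
  · rw [SemilinearAut.coe_degZeroSMulHom]
    conv_lhs => rw [← smul_inv_smul g v, SemilinearAut.divisor_smul_apply_smul, hD]
    conv_rhs => rw [← smul_inv_smul g v, SemilinearAut.ord_smul]
  · rw [← map_pow, hG, conjMero_embed]
  · have h1 := congrArg conjMero (hGφ (jConjGamma0 N γ))
    rw [ModularCurve.Period.jConjGamma0_coe, conjMero_slComp, map_mul, conjMero_const,
      conj_zeta] at h1
    exact h1

theorem wFun_jConjGamma0 (γ : Gamma0 N) :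
    wFun (jConjGamma0 N γ) = jConjGamma0 N (wFun γ) := by
  obtain ⟨c, hc⟩ := exists_lower_eq γ
  have hc' : ((jConjGamma0 N γ : Gamma0 N) : SL(2, ℤ)) 1 0 = N * -c := by
    simp [hc]
  apply Subtype.ext
  apply Subtype.ext
  rw [wFun_apply_of_eq hc']
  ext i j
  fin_cases i <;> fin_cases j <;> simp [wFun_apply_of_eq hc]

/-- Kummer classes of complex conjugates. -/
theorem kummer_conjBar (x y : Tors N n) (hy : (y : JZero N) = conjBar • (x : JZero N)) :
    (kummer N n y : Additive (Gamma0 N) →+ ZMod n) =
      -(charInvolution N (ZMod n) (ZMod n) (kummer N n x)) := by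
  have hk := isKummer_conjBar (isKummer_multHom ιbar x)
  rw [← hy] at hk
  rw [coe_kummer, multHom_eq ιbar hk, coe_kummer]
  refine AddMonoidHom.ext fun γ => ?_
  obtain ⟨γ, rfl⟩ := Additive.ofMul.surjective γ
  rw [twist_apply, AddMonoidHom.neg_apply, AddMonoidHom.neg_apply]
  simp only [ModularCurve.Period.charInvolution_apply, toMul_ofMul, twist_apply]
  rw [wFun_jConjGamma0]

/-! ### In coordinates -/

variable (N)

omit [NeZero N] in
theorem charInvolution_mem_parEllHoms {R : Type*} [Semiring R] {A : Type*} [AddCommGroup A]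
    [Module R A] {φ : Additive (Gamma0 N) →+ A} (hφ : φ ∈ parEllHoms R (Gamma0 N) A) :
    charInvolution N R A φ ∈ parEllHoms R (Gamma0 N) A := fun γ hγ =>
  mem_parEllHoms_iff.1 hφ (jConjGamma0 N γ) (by
    rwa [ModularCurve.Period.jConjGamma0_coe, ModularCurve.Period.jConjSL_coe,
      ModularCurve.Period.jConjMat_trace])

/-- The matrix of the involution on the lattice. -/
def parConjMat : Matrix (Fin (homRank N)) (Fin (homRank N)) ℤ := fun i j =>
  (parCoord N ℤ ℤ).symm ⟨charInvolution N ℤ ℤ (parGen N j : Additive (Gamma0 N) →+ ℤ),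
    charInvolution_mem_parEllHoms N (parGen N j).2⟩ i

theorem parVal_jConj (j : Fin (homRank N)) (γ : Gamma0 N) :
    parVal N j (jConjGamma0 N γ) = ∑ i, parVal N i γ * parConjMat N i j := by
  have h := (parCoord N ℤ ℤ).apply_symm_apply
    ⟨charInvolution N ℤ ℤ (parGen N j : Additive (Gamma0 N) →+ ℤ),
      charInvolution_mem_parEllHoms N (parGen N j).2⟩
  have h2 := congrArg (fun φ : parEllHoms ℤ (Gamma0 N) ℤ =>
    (φ : Additive (Gamma0 N) →+ ℤ) (Additive.ofMul γ)) h
  simp only [parCoord_apply, smul_eq_mul] at h2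
  exact h2.symm

theorem charInvolution_parCoord (A : Type) [CommRing A] (a : Fin (homRank N) → A) :
    charInvolution N A A (parCoord N A A a : Additive (Gamma0 N) →+ A) =
      (parCoord N A A ((parConjMat N).map (Int.cast : ℤ → A) *ᵥ a) :
        Additive (Gamma0 N) →+ A) := by
  refine AddMonoidHom.ext fun γ => ?_
  obtain ⟨γ, rfl⟩ := Additive.ofMul.surjective γ
  rw [ModularCurve.Period.charInvolution_apply, toMul_ofMul, parCoord_apply, parCoord_apply]
  simp only [parVal_jConj, zsmul_eq_mul, Matrix.mulVec, dotProduct, Matrix.map_apply,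
    Finset.mul_sum, Finset.sum_mul, Int.cast_sum, Int.cast_mul]
  rw [Finset.sum_comm]
  exact Finset.sum_congr rfl fun i _ => Finset.sum_congr rfl fun j _ => by ring

/-- Complex conjugation in lattice coordinates. -/
theorem torsRho_conjBar :
    torsRho N n conjBar = -(parConjMat N).map (Int.cast : ℤ → ZMod n) := by
  refine ext_of_mulVec_torsCoord N n fun x => ?_
  rw [torsRho_mulVec, Matrix.neg_mulVec]
  have key := charInvolution_parCoord N (ZMod n) (torsCoord N n x)
  rw [parCoord_torsCoord] at key
  apply (parCoord N (ZMod n) (ZMod n)).injective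
  apply Subtype.ext
  rw [parCoord_torsCoord, map_neg, Submodule.coe_neg]
  refine Eq.trans ?_ (congrArg Neg.neg key)
  have hy : ((JZero.torsionGaloisRep N n conjBar x : Tors N n) : JZero N) =
      conjBar • (x : JZero N) :=
    JZero.coe_torsionGaloisRep_apply N conjBar x
  exact kummer_conjBar x (JZero.torsionGaloisRep N n conjBar x) hy

omit [NeZero N] in
/-- The involution exchanges the two halves of `periodHomPair`. -/
theorem charInvolution_periodHomPair (f g : CuspForm (Gamma0 N) 2) :
    charInvolution N ℂ ℂ (periodHomPair N (f, g)) = periodHomPair N (f, -g) := by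
  rw [periodHomPair]
  split_ifs with h
  · simp only [LinearMap.coprod_apply, LinearMap.comp_apply, LinearMap.add_apply,
      LinearMap.sub_apply, LinearMap.id_apply, map_add, map_sub, map_neg,
      ModularCurve.Period.charInvolution_charInvolution]
    abel
  · simp

/-- On periods, `parConjMat` changes the sign of the second form. -/
theorem parConjMat_mulVec_periodEquiv (f g : CuspForm (Gamma0 N) 2) :
    (parConjMat N).map (Int.cast : ℤ → ℂ) *ᵥ periodEquiv N (f, g) = periodEquiv N (f, -g) := by
  apply (parCoord N ℂ ℂ).injective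
  apply Subtype.ext
  rw [← charInvolution_parCoord, parCoord_periodEquiv, parCoord_periodEquiv,
    charInvolution_periodHomPair]

end Fermat.Agent.MazurStep.Global
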