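import Fermat.Agent.Gal.Unramified

/-!
# Cocycles with values in `μ_l` which are unramified outside `l`

A finite-level cocycle `c : Gal(ℚ̄/ℚ) → ZMod l` twisted by the cyclotomic character and vanishing on
inertia outside `l` is the Kummer cocycle of a root of some `± l ^ i`.
-/

set_option autoImplicit false

noncomputable section

open scoped Pointwise
open IntermediateField Polynomial

namespace Fermat.Agent.MazurStep.Global

local notation "ℚbar" => AlgebraicClosure ℚ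
local notation "Γℚ" => AlgebraicClosure ℚ ≃ₐ[ℚ] AlgebraicClosure ℚ

variable {l : ℕ} [hl : Fact l.Prime]

theorem zeta_pow_eq_iff {ζ : ℚbar} (hζ : IsPrimitiveRoot ζ l) {a b : ℕ} :
    ζ ^ a = ζ ^ b ↔ (a : ZMod l) = (b : ZMod l) := by
  rw [ZMod.natCast_eq_natCast_iff']
  have hmod : ∀ n, ζ ^ (n % l) = ζ ^ n := fun n => by
    conv_rhs => rw [← Nat.mod_add_div n l, pow_add, pow_mul, hζ.pow_eq_one, one_pow, mul_one]
  rw [← hmod a, ← hmod b]
  exact ⟨fun h => hζ.pow_inj (Nat.mod_lt _ hl.out.pos) (Nat.mod_lt _ hl.out.pos) h,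
    fun h => by rw [h]⟩

/-- A twisted cocycle. -/
def IsTwistedCocycle (e : Γℚ →* (ZMod l)ˣ) (c : Γℚ → ZMod l) : Prop :=
  ∀ σ τ, c (σ * τ) = c σ + (e σ : ZMod l) * c τ

/-- The function factors through a finite extension. -/
def HasFiniteLevel {M : Type*} (c : Γℚ → M) : Prop :=
  ∃ L : IntermediateField ℚ ℚbar, FiniteDimensional ℚ L ∧
    ∀ σ τ : Γℚ, (∀ x ∈ L, σ x = τ x) → c σ = c τ

omit hl in
/-- Inertia outside `l` fixes the `l`-th roots of unity. -/
theorem apply_zeta_of_inertia {q : ℕ} (hq : q.Prime) (hql : ¬ q ∣ l) {A : ValuationSubring ℚbar}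
    (hA : A.LiesOverPrime q) {σ : Γℚ} (hσ : σ ∈ A.inertiaSubgroupIn ℚ) {ζ : ℚbar}
    (hζ : ζ ^ l = 1) : σ ζ = ζ := by
  obtain ⟨φ, hφ⟩ := Gal.exists_isFrobeniusAt hq hA
  have h1 := Gal.apply_rootOfUnity_of_isFrobeniusAt hφ hq hA hql hζ
  have h2 := Gal.apply_rootOfUnity_of_isFrobeniusAt (Gal.isFrobeniusAt_mul_inertia hφ hσ) hq hA
    hql hζ
  rw [AlgEquiv.mul_apply, ← h1] at h2
  exact φ.injective h2

/-- The cyclotomic character is unramified outside `l`. -/
theorem autToPow_eq_one_of_inertia {ζ : ℚbar} (hζ : IsPrimitiveRoot ζ l) {q : ℕ} (hq : q.Prime)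
    (hql : q ≠ l) {A : ValuationSubring ℚbar} (hA : A.LiesOverPrime q) {σ : Γℚ}
    (hσ : σ ∈ A.inertiaSubgroupIn ℚ) :
    (haveI : NeZero l := ⟨hl.out.ne_zero⟩; hζ.autToPow ℚ σ) = 1 := by
  have h := apply_zeta_of_inertia hq (fun h => hql ((Nat.prime_dvd_prime_iff_eq hq hl.out).1 h))
    hA hσ hζ.pow_eq_one
  rw [← hζ.autToPow_spec ℚ σ] at h
  conv_rhs at h => rw [← pow_one ζ]
  exact Units.ext ((ZMod.val_injective l) (by
    rw [Units.val_one, ZMod.val_one]
    exact hζ.pow_inj (ZMod.val_lt _) hl.out.one_lt h))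

/-- Vanishing on one inertia group over a prime gives vanishing on all of them. -/
theorem vanish_of_conj {e : Γℚ →* (ZMod l)ˣ} {c : Γℚ → ZMod l} (hc : IsTwistedCocycle e c)
    {q : ℕ} (hq : q.Prime) {A A' : ValuationSubring ℚbar} (hA : A.LiesOverPrime q)
    (hA' : A'.LiesOverPrime q) (he : ∀ σ ∈ A.inertiaSubgroupIn ℚ, e σ = 1)
    (h0 : ∀ σ ∈ A.inertiaSubgroupIn ℚ, c σ = 0) :
    ∀ σ ∈ A'.inertiaSubgroupIn ℚ, c σ = 0 ∧ e σ = 1 := by
  obtain ⟨g, hg⟩ := Gal.exists_smul_eq_of_liesOverPrime hq hA hA'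
  intro τ hτ
  have hσ : g⁻¹ * τ * g ∈ A.inertiaSubgroupIn ℚ := by
    rw [← hg] at hτ
    rw [← Gal.mem_inertia_smul_iff g]
    rwa [show g * (g⁻¹ * τ * g) * g⁻¹ = τ by group]
  set σ := g⁻¹ * τ * g
  have hτe : τ = g * σ * g⁻¹ := by simp only [σ]; group
  have heτ : e τ = 1 := by rw [hτe, map_mul, map_mul, he σ hσ, mul_one, ← map_mul]; simp
  refine ⟨?_, heτ⟩
  have h1 := hc τ g
  rw [heτ, Units.val_one, one_mul] at h1
  have h2 := hc g σ
  rw [h0 σ hσ, mul_zero, add_zero] at h2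
  rw [show g * σ = τ * g by rw [hτe]; group] at h2
  exact add_eq_right.1 (h1.symm.trans h2)

/-- A cocycle vanishing on all inertia, for a character trivial there, is zero. -/
theorem eq_zero_of_inertia {e : Γℚ →* (ZMod l)ˣ} {c : Γℚ → ZMod l} (hc : IsTwistedCocycle e c)
    (hlev : HasFiniteLevel c)
    (h : ∀ (q : ℕ), q.Prime → ∀ A : ValuationSubring ℚbar, A.LiesOverPrime q →
      ∀ σ ∈ A.inertiaSubgroupIn ℚ, c σ = 0) : ∀ σ, c σ = 0 := by
  have h1 : c 1 = 0 := by simpa using hc 1 1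
  let Z : Subgroup Γℚ :=
    { carrier := {σ | c σ = 0}
      one_mem' := h1
      mul_mem' := fun {a b} (ha : c a = 0) (hb : c b = 0) => by
        show c (a * b) = 0
        rw [hc, ha, hb]; ring
      inv_mem' := fun {a} (ha : c a = 0) => by
        show c a⁻¹ = 0
        have := hc a⁻¹ a
        rw [inv_mul_cancel, h1, ha, mul_zero, add_zero] at this
        exact this.symm }
  obtain ⟨L, hL, hcL⟩ := hlev
  have hle : L.fixingSubgroup ≤ Z := fun σ hσ => by
    show c σ = 0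
    rw [hcL σ 1 fun x hx => (mem_fixingSubgroup_iff Γℚ).1 hσ x hx, h1]
  have hopen : IsOpen (Z : Set Γℚ) :=
    Subgroup.isOpen_mono hle (IntermediateField.fixingSubgroup_isOpen L)
  have htop := Gal.eq_top_of_inertia_le Z (Subgroup.isClosed_of_isOpen Z hopen)
    fun q hq A hA σ hσ => h q hq A hA σ hσ
  exact fun σ => show σ ∈ Z by rw [htop]; trivial

/-- The Lagrange resolvent. -/
theorem exists_root {ζ : ℚbar} (hζ : IsPrimitiveRoot ζ l) {c : Γℚ → ZMod l}
    (hc : IsTwistedCocycle (haveI : NeZero l := ⟨hl.out.ne_zero⟩; hζ.autToPow ℚ) c)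
    (hlev : HasFiniteLevel c) :
    ∃ lam : ℚbar, lam ≠ 0 ∧ ∀ σ : Γℚ, σ lam = ζ ^ (c σ).val * lam := by
  obtain ⟨E, hE, hcE⟩ := hlev
  have : FiniteDimensional ℚ ℚ⟮ζ⟯ :=
    adjoin.finiteDimensional (Algebra.IsIntegral.isIntegral (R := ℚ) ζ)
  set F := IntermediateField.normalClosure ℚ ↥(E ⊔ ℚ⟮ζ⟯) ℚbar
  have : Normal ℚ F := normalClosure.normal ℚ _ _
  have hEF : E ⊔ ℚ⟮ζ⟯ ≤ F := le_normalClosure _
  have hzF : ζ ∈ F := hEF ((le_sup_right : ℚ⟮ζ⟯ ≤ _) (mem_adjoin_simple_self ℚ ζ))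
  set zF : F := ⟨ζ, hzF⟩
  have hzF' : zF ^ l = 1 := Subtype.ext hζ.pow_eq_one
  have hzF0 : zF ≠ 0 := fun h => hζ.ne_zero hl.out.ne_zero (congrArg Subtype.val h)
  let r : Γℚ →* (F ≃ₐ[ℚ] F) := AlgEquiv.restrictNormalHom F
  have hr : Function.Surjective r := AlgEquiv.restrictNormalHom_surjective ℚbar
  have hrc : ∀ (σ : Γℚ) (x : F), ((r σ x : F) : ℚbar) = σ x :=
    fun σ x => AlgEquiv.restrictNormal_commutes σ F x
  have hcr : ∀ σ τ, r σ = r τ → c σ = c τ := fun σ τ h => hcE σ τ fun x hx => by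
    rw [← hrc σ ⟨x, hEF ((le_sup_left : E ≤ E ⊔ ℚ⟮ζ⟯) hx)⟩, h, hrc]
  have hs : ∀ g, r (Function.surjInv hr g) = g := Function.surjInv_eq hr
  let f : (F ≃ₐ[ℚ] F) → Fˣ := fun g => Units.mk0 zF hzF0 ^ (c (Function.surjInv hr g)).val
  have hf : groupCohomology.IsMulCocycle₁ f := by
    intro g h
    set σ := Function.surjInv hr g
    set τ := Function.surjInv hr h
    have e1 : c (Function.surjInv hr (g * h)) = c (σ * τ) :=
      hcr _ _ (by rw [hs, map_mul, hs, hs])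
    refine Units.ext (Subtype.ext ?_)
    simp only [f, e1, AlgEquiv.smul_units_def, Units.val_mul, Units.coe_map, MonoidHom.coe_coe,
      Units.val_pow_eq_pow_val, Units.val_mk0]
    rw [show (g : F ≃ₐ[ℚ] F) = r σ from (hs g).symm]
    push_cast
    rw [hrc, SubmonoidClass.coe_pow, map_pow, ← hζ.autToPow_spec ℚ σ, ← pow_mul, ← pow_add,
      show ((zF : F) : ℚbar) = ζ from rfl, zeta_pow_eq_iff hζ]
    push_cast
    simp only [ZMod.natCast_zmod_val]
    rw [hc, hcr (Function.surjInv hr (r σ)) σ (hs _)]; simp only [τ]; ring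
  obtain ⟨β, hβ⟩ := groupCohomology.isMulCoboundary₁_of_isMulCocycle₁_of_aut_to_units f hf
  refine ⟨((β : F) : ℚbar), fun h => β.ne_zero (Subtype.ext h), fun σ => ?_⟩
  have h1 := hβ (r σ)
  rw [div_eq_iff_eq_mul, Units.ext_iff, AlgEquiv.smul_units_def] at h1
  have h2 := congrArg Subtype.val h1
  simp only [Units.coe_map, MonoidHom.coe_coe, Units.val_mul, f, Units.val_pow_eq_pow_val,
    Units.val_mk0, MulMemClass.coe_mul, SubmonoidClass.coe_pow] at h2
  rw [hrc] at h2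
  rw [h2, hcr _ σ (hs (r σ))]

/-- A root of `q u` cannot be fixed by inertia at `q`. -/
theorem not_inertia_fixed {q : ℕ} (hq : q.Prime) {A : ValuationSubring ℚbar}
    (hA : A.LiesOverPrime q) (hql : q ≠ l) {u : ℤ}
    (hu : ¬ (q : ℤ) ∣ u) {μ : ℚbar} (hμ : μ ^ l = (((q : ℤ) * u : ℤ) : ℚbar))
    (hfix : ∀ σ ∈ A.inertiaSubgroupIn ℚ, σ μ = μ) : False := by
  have hq0 : (q : ℤ) * u ≠ 0 :=
    mul_ne_zero (by exact_mod_cast hq.ne_zero) fun h => hu (h ▸ dvd_zero _)
  let f : ℚ[X] := X ^ l - C (((q : ℤ) * u : ℤ) : ℚ)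
  have hμ0 : μ ≠ 0 := fun h => by
    rw [h, zero_pow hl.out.ne_zero] at hμ
    exact hq0 (by exact_mod_cast hμ.symm)
  let E : IntermediateField ℚ ℚbar := IntermediateField.adjoin ℚ (f.rootSet ℚbar)
  have hsf : f.IsSplittingField ℚ E :=
    IntermediateField.adjoin_rootSet_isSplittingField (IsAlgClosed.splits _)
  have hfin : FiniteDimensional ℚ E := IsSplittingField.finiteDimensional E f
  have hnor : Normal ℚ E := Normal.of_isSplittingField f
  have : NumberField E := @NumberField.mk _ _ _ (by convert hfin)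
  have : IsGalois ℚ E := ⟨⟩
  have hroot : ∀ y ∈ f.rootSet ℚbar, y ^ l = μ ^ l := by
    intro y hy
    have := (mem_rootSet.1 hy).2
    simp [f, sub_eq_zero] at this
    rw [this, hμ]; push_cast; ring
  have hfixE : ∀ σ ∈ A.inertiaSubgroupIn ℚ, ∀ x ∈ E, σ x = x := by
    intro σ hσ x hx
    induction hx using IntermediateField.adjoin_induction with
    | mem y hy =>
      have h1 : (y / μ) ^ l = 1 := by
        rw [div_pow, hroot y hy, div_self (pow_ne_zero _ hμ0)]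
      have h2 := apply_zeta_of_inertia hq
        (fun h => hql ((Nat.prime_dvd_prime_iff_eq hq hl.out).1 h)) hA hσ h1
      rw [map_div₀, hfix σ hσ] at h2
      exact (div_left_inj' hμ0).1 h2
    | algebraMap r => exact σ.commutes r
    | add a b _ _ ha hb => rw [map_add, ha, hb]
    | inv a _ ha => rw [map_inv₀, ha]
    | mul a b _ _ ha hb => rw [map_mul, ha, hb]
  have hμE : μ ∈ E := IntermediateField.subset_adjoin ℚ _ (mem_rootSet.2
    ⟨(monic_X_pow_sub_C _ hl.out.ne_zero).ne_zero, by simp [f, hμ]⟩)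
  have hμint : IsIntegral ℤ (⟨μ, hμE⟩ : E) := by
    refine ⟨X ^ l - C ((q : ℤ) * u), monic_X_pow_sub_C _ hl.out.ne_zero, Subtype.ext ?_⟩
    simp only [eval₂_sub, eval₂_pow, eval₂_X, eval₂_C]
    simp [hμ]
  let m : NumberField.RingOfIntegers E := ⟨⟨μ, hμE⟩, hμint⟩
  have hm : m ^ l = (((q : ℤ) * u : ℤ) : NumberField.RingOfIntegers E) := by
    refine IsFractionRing.injective (NumberField.RingOfIntegers E) E ?_
    rw [map_pow, map_intCast]
    refine Subtype.ext ?_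
    rw [SubmonoidClass.coe_pow]
    show μ ^ l = _
    simpa using hμ
  set P := Gal.primeBelow E A
  have : Algebra.IsUnramifiedAt ℤ P := Gal.isUnramifiedAt_primeBelow_of_fixed E hq hA hfixE
  have hqP : (q : NumberField.RingOfIntegers E) ∈ P := Gal.natCast_mem_primeBelow E hA
  have hmP : m ∈ P := by
    refine (Gal.primeBelow_isPrime E A).mem_of_pow_mem l ?_
    rw [hm, Int.cast_mul, Int.cast_natCast]
    exact P.mul_mem_right _ hqP
  have huP : (u : NumberField.RingOfIntegers E) ∉ P := by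
    rw [Gal.mem_primeBelow]
    simpa using fun h => hu ((Gal.intCast_mem_nonunits_iff A hq hA u).1 h)
  have hP0 : P ≠ ⊥ := fun h => by
    rw [h, Ideal.mem_bot] at hqP
    exact hq.ne_zero (by exact_mod_cast hqP)
  have hov : P.LiesOver (Ideal.span {(q : ℤ)}) := by
    refine ⟨(PrincipalIdealRing.isMaximal_of_irreducible
      (Nat.prime_iff_prime_int.1 hq).irreducible).eq_of_le
        (Ideal.IsPrime.under ℤ _).ne_top ?_⟩
    rw [Ideal.span_le, Set.singleton_subset_iff]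
    show algebraMap ℤ (NumberField.RingOfIntegers E) (q : ℤ) ∈ P
    simpa using hqP
  have hne : (Ideal.span {(q : ℤ)}).map (algebraMap ℤ (NumberField.RingOfIntegers E)) ≠ ⊥ := by
    rw [Ideal.map_span, Set.image_singleton, Ne, Ideal.span_singleton_eq_bot]
    simpa using hq.ne_zero
  have hmul : multiplicity P (Ideal.span {((q : ℕ) : NumberField.RingOfIntegers E)}) = 1 := by
    have h1 := Ideal.IsDedekindDomain.ramificationIdx_eq_multiplicity (Ideal.span {(q : ℤ)}) P hne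
    rw [Ideal.ramificationIdx_eq_one, Ideal.map_span, Set.image_singleton] at h1
    simpa using h1.symm
  have hPp : Prime P := Ideal.prime_of_isPrime hP0 inferInstance
  have hPu : ¬ P ∣ Ideal.span {(u : NumberField.RingOfIntegers E)} := fun h =>
    huP (Ideal.le_of_dvd h (Ideal.mem_span_singleton_self _))
  have h2 : P ^ 2 ∣ Ideal.span {(q : NumberField.RingOfIntegers E)} *
      Ideal.span {(u : NumberField.RingOfIntegers E)} := by
    have hle : P ^ 2 ∣ Ideal.span {m} ^ l :=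
      (pow_dvd_pow_of_dvd (Ideal.dvd_span_singleton.2 hmP) 2).trans (pow_dvd_pow _ hl.out.two_le)
    rw [Ideal.span_singleton_pow, hm, Int.cast_mul, Int.cast_natCast,
      ← Ideal.span_singleton_mul_span_singleton] at hle
    exact hle
  have h3 : P ^ 2 ∣ Ideal.span {(q : NumberField.RingOfIntegers E)} :=
    hPp.pow_dvd_of_dvd_mul_right 2 hPu h2
  have hfm : FiniteMultiplicity P (Ideal.span {(q : NumberField.RingOfIntegers E)}) :=
    FiniteMultiplicity.of_prime_left hPp (by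
      rw [Ne, Ideal.zero_eq_bot, Ideal.span_singleton_eq_bot]; exact_mod_cast hq.ne_zero)
  have := hfm.le_multiplicity_of_pow_dvd h3
  omega

/-- Normal form of the radicand. -/
theorem exists_normal_form {ζ : ℚbar} (hζ : IsPrimitiveRoot ζ l) {c : Γℚ → ZMod l}
    (hc : IsTwistedCocycle (haveI : NeZero l := ⟨hl.out.ne_zero⟩; hζ.autToPow ℚ) c)
    (hlev : HasFiniteLevel c)
    (hunr : ∀ q : ℕ, q.Prime → q ≠ l → ∀ A : ValuationSubring ℚbar, A.LiesOverPrime q →
      ∀ σ ∈ A.inertiaSubgroupIn ℚ, c σ = 0) :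
    ∃ (lam : ℚbar) (i : ℕ), lam ≠ 0 ∧ i < l ∧
      (lam ^ l = (l : ℚbar) ^ i ∨ lam ^ l = -((l : ℚbar) ^ i)) ∧
      ∀ σ : Γℚ, σ lam = ζ ^ (c σ).val * lam := by
  obtain ⟨lam₀, hlam0, hlam⟩ := exists_root hζ hc hlev
  obtain ⟨a, ha⟩ : lam₀ ^ l ∈ Set.range (algebraMap ℚ ℚbar) :=
    (InfiniteGalois.mem_range_algebraMap_iff_fixed _).2 fun σ => by
      rw [map_pow, hlam, mul_pow, ← pow_mul, mul_comm (c σ).val l, pow_mul,
        hζ.pow_eq_one, one_pow, one_mul]
  -- an integral radicand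
  set lam₁ := (a.den : ℚbar) * lam₀ with hlam1
  set n : ℤ := a.num * (a.den : ℤ) ^ (l - 1) with hn
  have hden : (a.den : ℚbar) ≠ 0 := by exact_mod_cast a.den_ne_zero
  have hn1 : lam₁ ^ l = (n : ℚbar) := by
    rw [hlam1, mul_pow, ← ha, hn]
    conv_lhs => rw [show l = l - 1 + 1 from (Nat.sub_add_cancel hl.out.one_le).symm, pow_succ]
    rw [eq_ratCast, Rat.cast_def]
    push_cast
    field_simp
  have hn0 : n ≠ 0 := fun h => by
    rw [h, Int.cast_zero] at hn1
    exact mul_ne_zero hden hlam0 (pow_eq_zero_iff hl.out.ne_zero |>.1 hn1)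
  have hσ1 : ∀ σ : Γℚ, σ lam₁ = ζ ^ (c σ).val * lam₁ := fun σ => by
    rw [hlam1, map_mul, map_natCast, hlam]; ring
  set m := n.natAbs with hm
  have hm0 : m ≠ 0 := Int.natAbs_ne_zero.2 hn0
  -- exponents away from `l` are divisible by `l`
  have hdiv : ∀ q ∈ m.primeFactors, q ≠ l → l ∣ m.factorization q := by
    intro q hq hql
    obtain ⟨hqp, -, -⟩ := Nat.mem_primeFactors.1 hq
    by_contra hnd
    set v := m.factorization q with hv
    obtain ⟨A, hA⟩ := Gal.exists_liesOverPrime (L := ℚbar) hqp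
    obtain ⟨u, -, hu⟩ := Nat.exists_mul_mod_eq_one_of_coprime
      (k := l) ((hl.out.coprime_iff_not_dvd.2 hnd).symm) hl.out.one_lt
    obtain ⟨k, hk⟩ : ∃ k, v * u = l * k + 1 := ⟨v * u / l, by
      have := Nat.div_add_mod (v * u) l; omega⟩
    obtain ⟨w, hw⟩ : ((q ^ v : ℕ) : ℤ) ∣ n := Int.natCast_dvd.2 (Nat.ordProj_dvd m q)
    have hwq : ¬ (q : ℤ) ∣ w := fun hd => by
      have h1 : ((q ^ (v + 1) : ℕ) : ℤ) ∣ n := by
        rw [hw, pow_succ, Nat.cast_mul]; exact mul_dvd_mul_left _ hd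
      exact Nat.pow_succ_factorization_not_dvd hm0 hqp (Int.natCast_dvd.1 h1)
    have hq0 : (q : ℚbar) ≠ 0 := by exact_mod_cast hqp.ne_zero
    refine not_inertia_fixed hqp hA hql (u := w ^ u) (μ := lam₁ ^ u / (q : ℚbar) ^ k) ?_ ?_ ?_
    · exact fun hd => hwq ((Nat.prime_iff_prime_int.1 hqp).dvd_of_dvd_pow hd)
    · rw [div_pow, ← pow_mul, mul_comm u, pow_mul, hn1, hw, div_eq_iff (pow_ne_zero _
        (pow_ne_zero _ hq0))]
      push_cast
      rw [mul_pow, ← pow_mul, ← pow_mul, hk, mul_comm l k]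
      ring
    · intro σ hσ
      have hfix : σ lam₁ = lam₁ := by
        rw [hσ1, hunr q hqp hql A hA σ hσ, ZMod.val_zero, pow_zero, one_mul]
      rw [map_div₀, map_pow, map_pow, hfix, map_natCast]
  set b : ℕ := ∏ q ∈ m.primeFactors, q ^ (m.factorization q / l) with hb
  set i := m.factorization l % l with hi
  have hmb : m = l ^ i * b ^ l := by
    conv_lhs => rw [← Nat.prod_factorization_pow_eq_self hm0]
    rw [Finsupp.prod, Nat.support_factorization, hb, ← Finset.prod_pow]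
    have key : ∀ q ∈ m.primeFactors, q ^ m.factorization q =
        q ^ (m.factorization q % l) * (q ^ (m.factorization q / l)) ^ l := fun q _ => by
      rw [← pow_mul, ← pow_add, mul_comm _ l, Nat.mod_add_div]
    rw [Finset.prod_congr rfl key, Finset.prod_mul_distrib]
    congr 1
    rw [Finset.prod_eq_single l]
    · intro q hq hql
      rw [Nat.dvd_iff_mod_eq_zero.1 (hdiv q hq hql), pow_zero]
    · intro hl'
      rw [← Nat.support_factorization, Finsupp.notMem_support_iff] at hl'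
      rw [hl', Nat.zero_mod, pow_zero]
  have hb0 : (b : ℚbar) ≠ 0 := by
    have : b ≠ 0 := fun h => hm0 (by rw [hmb, h, zero_pow hl.out.ne_zero, mul_zero])
    exact_mod_cast this
  refine ⟨lam₁ / b, i, div_ne_zero (mul_ne_zero hden hlam0) hb0, Nat.mod_lt _ hl.out.pos,
    ?_, fun σ => ?_⟩
  · have hpm : (n : ℚbar) = (m : ℚbar) ∨ (n : ℚbar) = -(m : ℚbar) := by
      rcases Int.natAbs_eq n with h | h <;> rw [← hm] at h
      · left; rw [h]; push_cast; rfl
      · right; rw [h]; push_cast; rfl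
    rw [div_pow, hn1]
    rcases hpm with h | h <;> [left; right] <;> rw [h, hmb] <;> push_cast <;> field_simp
  · rw [map_div₀, map_natCast, hσ1, mul_div_assoc]

/-- If the hypothesis "no component along `± l`" holds, the radicand is `± 1`. -/
theorem exists_unit_form {ζ : ℚbar} (hζ : IsPrimitiveRoot ζ l) {c : Γℚ → ZMod l}
    (hc : IsTwistedCocycle (haveI : NeZero l := ⟨hl.out.ne_zero⟩; hζ.autToPow ℚ) c)
    (hlev : HasFiniteLevel c)
    (hunr : ∀ q : ℕ, q.Prime → q ≠ l → ∀ A : ValuationSubring ℚbar, A.LiesOverPrime q →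
      ∀ σ ∈ A.inertiaSubgroupIn ℚ, c σ = 0)
    (Al : ValuationSubring ℚbar)
    (hexc : ∀ lam : ℚbar, (lam ^ l = l ∨ lam ^ l = -(l : ℚbar)) → ∀ k : ZMod l,
      (∀ σ ∈ Al.inertiaSubgroupIn ℚ, σ ζ = ζ → ∀ j : ℕ, σ lam = ζ ^ j * lam → c σ = k * j) →
      k = 0) :
    ∃ lam : ℚbar, lam ≠ 0 ∧ (lam ^ l = 1 ∨ lam ^ l = -1) ∧
      ∀ σ : Γℚ, σ lam = ζ ^ (c σ).val * lam := by
  obtain ⟨lam, i, hlam0, hil, hpow, hσ⟩ := exists_normal_form hζ hc hlev hunr
  rcases Nat.eq_zero_or_pos i with rfl | hi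
  · exact ⟨lam, hlam0, by simpa using hpow, hσ⟩
  exfalso
  have hl0 : (l : ℚbar) ≠ 0 := by exact_mod_cast hl.out.ne_zero
  have hico : Nat.Coprime i l :=
    (hl.out.coprime_iff_not_dvd.2 fun h => (Nat.le_of_dvd hi h).not_gt hil).symm
  obtain ⟨u, -, hu⟩ := Nat.exists_mul_mod_eq_one_of_coprime (k := l) hico hl.out.one_lt
  obtain ⟨k, hk⟩ : ∃ k, i * u = l * k + 1 := ⟨i * u / l, by
    have := Nat.div_add_mod (i * u) l; omega⟩
  have hiu : (i : ZMod l) * (u : ZMod l) = 1 := by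
    rw [← Nat.cast_mul, hk]; push_cast; simp
  have hi0 : (i : ZMod l) = 0 := by
    refine hexc (lam ^ u / (l : ℚbar) ^ k) ?_ i fun σ hσI hσζ j hj => ?_
    · rw [div_pow, ← pow_mul lam, mul_comm u, pow_mul lam, ← pow_mul (l : ℚbar) k]
      rcases hpow with h | h
      · left
        rw [h, ← pow_mul, hk, div_eq_iff (pow_ne_zero _ hl0)]
        ring
      · rcases Nat.even_or_odd u with hev | hodd
        · left
          rw [h, hev.neg_pow, ← pow_mul, hk, div_eq_iff (pow_ne_zero _ hl0)]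
          ring
        · right
          rw [h, hodd.neg_pow, ← pow_mul, hk, div_eq_iff (pow_ne_zero _ hl0)]
          ring
    · rw [map_div₀, map_pow, map_pow, map_natCast, hσ, mul_pow, mul_div_assoc, ← pow_mul] at hj
      have h2 := mul_right_cancel₀ (div_ne_zero (pow_ne_zero u hlam0) (pow_ne_zero k hl0)) hj
      rw [zeta_pow_eq_iff hζ] at h2
      push_cast at h2
      rw [ZMod.natCast_zmod_val] at h2
      calc c σ = c σ * ((i : ZMod l) * u) := by rw [hiu, mul_one]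
        _ = (i : ZMod l) * j := by rw [← h2]; ring
  rw [hi0, zero_mul] at hiu
  exact zero_ne_one hiu

/-- There are at most `l` cocycles with radicand `± 1`. -/
theorem exists_finset_unit_form {ζ : ℚbar} (hζ : IsPrimitiveRoot ζ l) :
    ∃ S : Finset (Γℚ → ZMod l), S.card ≤ l ∧ ∀ c : Γℚ → ZMod l, ∀ lam : ℚbar, lam ≠ 0 →
      (lam ^ l = 1 ∨ lam ^ l = -1) → (∀ σ : Γℚ, σ lam = ζ ^ (c σ).val * lam) → c ∈ S := by
  classical
  obtain ⟨η, hη0, hη⟩ : ∃ η : ℚbar, η ≠ 0 ∧ ∀ lam : ℚbar, (lam ^ l = 1 ∨ lam ^ l = -1) →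
      ∃ t < l, lam = η ^ t ∨ lam = -η ^ t := by
    rcases hl.out.eq_two_or_odd' with h2 | hodd
    · subst h2
      obtain ⟨i, hi⟩ := IsAlgClosed.exists_pow_nat_eq (-1 : ℚbar) (n := 2) two_pos
      refine ⟨i, fun e => by simp [e] at hi, fun lam h => ?_⟩
      rcases h with h | h
      · refine ⟨0, hl.out.pos, ?_⟩
        have : lam ^ 2 = 1 ^ 2 := by rw [one_pow, h]
        simpa using sq_eq_sq_iff_eq_or_eq_neg.1 this
      · refine ⟨1, hl.out.one_lt, ?_⟩
        have : lam ^ 2 = i ^ 2 := by rw [hi, h]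
        simpa using sq_eq_sq_iff_eq_or_eq_neg.1 this
    · refine ⟨ζ, hζ.ne_zero hl.out.ne_zero, fun lam h => ?_⟩
      rcases h with h | h
      · obtain ⟨t, ht, rfl⟩ := hζ.eq_pow_of_pow_eq_one h
        exact ⟨t, ht, Or.inl rfl⟩
      · obtain ⟨t, ht, e⟩ := hζ.eq_pow_of_pow_eq_one (ξ := -lam)
          (by rw [hodd.neg_pow, h, neg_neg])
        exact ⟨t, ht, Or.inr (by rw [e, neg_neg])⟩
  let Φ : Fin l → Γℚ → ZMod l := fun t σ =>
    if h : ∃ x : ZMod l, σ (η ^ (t : ℕ)) = ζ ^ x.val * η ^ (t : ℕ) then h.choose else 0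
  refine ⟨Finset.univ.image Φ, Finset.card_image_le.trans (by simp), fun c lam _ hpm hσ => ?_⟩
  obtain ⟨t, ht, hlt⟩ := hη lam hpm
  refine Finset.mem_image.2 ⟨⟨t, ht⟩, Finset.mem_univ _, funext fun σ => ?_⟩
  have hx : σ (η ^ t) = ζ ^ (c σ).val * η ^ t := by
    rcases hlt with e | e <;> have := hσ σ <;> rw [e] at this
    · exact this
    · rw [map_neg, mul_neg, neg_inj] at this; exact this
  have hex : ∃ x : ZMod l, σ (η ^ t) = ζ ^ x.val * η ^ t := ⟨_, hx⟩
  simp only [Φ, dif_pos hex]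
  exact ZMod.val_injective l (hζ.pow_inj (ZMod.val_lt _) (ZMod.val_lt _)
    (mul_right_cancel₀ (pow_ne_zero t hη0) (hex.choose_spec.symm.trans hx)))

/-- Radicand `± 1` and trivial on inertia at `l` gives zero. -/
theorem eq_zero_of_unit_form {ζ : ℚbar} (hζ : IsPrimitiveRoot ζ l) {c : Γℚ → ZMod l}
    (hc : IsTwistedCocycle (haveI : NeZero l := ⟨hl.out.ne_zero⟩; hζ.autToPow ℚ) c)
    (hlev : HasFiniteLevel c)
    (hunr : ∀ q : ℕ, q.Prime → q ≠ l → ∀ A : ValuationSubring ℚbar, A.LiesOverPrime q →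
      ∀ σ ∈ A.inertiaSubgroupIn ℚ, c σ = 0)
    {Al : ValuationSubring ℚbar} (hAl : Al.LiesOverPrime l)
    (h0 : ∀ σ ∈ Al.inertiaSubgroupIn ℚ, c σ = 0) {lam : ℚbar}
    (hpm : lam ^ l = 1 ∨ lam ^ l = -1) (hσ : ∀ σ : Γℚ, σ lam = ζ ^ (c σ).val * lam) :
    ∀ σ, c σ = 0 := by
  by_cases hχ : ∀ σ ∈ Al.inertiaSubgroupIn ℚ, hζ.autToPow ℚ σ = 1
  · refine eq_zero_of_inertia hc hlev fun q hq A hA σ hσA => ?_
    by_cases hql : q = l
    · subst hql
      exact (vanish_of_conj hc hq hAl hA hχ h0 σ hσA).1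
    · exact hunr q hq hql A hA σ hσA
  push Not at hχ
  obtain ⟨σ₀, hσ₀, hσ₀χ⟩ := hχ
  have hodd : Odd l := hl.out.eq_two_or_odd'.resolve_left fun h2 => by
    subst h2
    exact hσ₀χ (Subsingleton.elim _ _)
  -- `±lam` is a root of unity fixed by `σ₀`, hence `1`
  obtain ⟨s, hs, hsl⟩ : ∃ s : ℚbar, (s = 1 ∨ s = -1) ∧ (s * lam) ^ l = 1 := by
    rcases hpm with h | h
    · exact ⟨1, Or.inl rfl, by rw [one_mul, h]⟩
    · exact ⟨-1, Or.inr rfl, by rw [mul_pow, hodd.neg_one_pow, h]; ring⟩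
  have hfix : ∀ σ : Γℚ, σ s = s := fun σ => by rcases hs with rfl | rfl <;> simp
  obtain ⟨t, ht, hts⟩ := hζ.eq_pow_of_pow_eq_one hsl
  have ht0 : t = 0 := by
    by_contra ht0
    have hprim : IsPrimitiveRoot (ζ ^ t) l := hζ.pow_of_coprime t
      (hl.out.coprime_iff_not_dvd.2 fun h =>
        (Nat.le_of_dvd (Nat.pos_of_ne_zero ht0) h).not_gt ht).symm
    have h1 : σ₀ (ζ ^ t) = ζ ^ t := by
      rw [hts, map_mul, hfix, hσ σ₀, h0 σ₀ hσ₀, ZMod.val_zero, pow_zero, one_mul]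
    obtain ⟨j, -, hj⟩ := hprim.eq_pow_of_pow_eq_one hζ.pow_eq_one
    have h2 : σ₀ ζ = ζ := by rw [← hj, map_pow, h1]
    refine hσ₀χ (Units.ext (ZMod.val_injective l ?_))
    rw [Units.val_one, ZMod.val_one]
    refine hζ.pow_inj (ZMod.val_lt _) hl.out.one_lt ?_
    rw [hζ.autToPow_spec ℚ, pow_one, h2]
  intro σ
  have hlam : σ lam = lam := by
    have h1 : σ (s * lam) = s * lam := by rw [← hts, ht0, pow_zero, map_one]
    rw [map_mul, hfix] at h1
    exact mul_left_cancel₀ (by rcases hs with rfl | rfl <;> norm_num) h1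
  have hlam0 : lam ≠ 0 := fun e => by
    subst e; rcases hpm with h | h <;> simp [zero_pow hl.out.ne_zero] at h
  have h2 : ζ ^ (c σ).val * lam = ζ ^ 0 * lam := by rw [← hσ, hlam, pow_zero, one_mul]
  exact ZMod.val_injective l ((hζ.pow_inj (ZMod.val_lt _) hl.out.pos
    (mul_right_cancel₀ hlam0 h2)).trans ZMod.val_zero.symm)

end Fermat.Agent.MazurStep.Global
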