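import Mathlib
import Fermat.Prelude.Def_ModularCurve_ArithmeticGalois
import Fermat.Prelude.Def_EllipticCurve_FrobeniusTrace

/-!
# Interfaces of the global descent

`selmer H l Al Ap` is the group of finite-level cocycles with values in `H` which are unramified
outside `{l, p}`, vanish on the inertia group of `Ap`, and agree on the inertia group of `Al` with
the coboundary of some point.

`FormalData` records what the formal group at `l` provides for a subgroup `G` of `l`-torsion.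

`EisensteinPiece` records the global properties of such a subgroup.
-/

set_option autoImplicit false

noncomputable section

namespace Fermat.Agent.MazurStep.Global

open ModularCurve

local notation "ℚbar" => AlgebraicClosure ℚ
local notation "Γℚ" => AlgebraicClosure ℚ ≃ₐ[ℚ] AlgebraicClosure ℚ

variable {p : ℕ} [NeZero p]

/-- The function only depends on the restriction to some finite extension. -/
def IsFiniteLevel {M : Type*} (z : Γℚ → M) : Prop :=
  ∃ L : IntermediateField ℚ ℚbar, FiniteDimensional ℚ L ∧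
    ∀ σ τ : Γℚ, (∀ x ∈ L, σ x = τ x) → z σ = z τ

/-- Membership in the Selmer group of cocycles. -/
structure IsSelmer (H : AddSubgroup (JZero p)) (l : ℕ) (Al Ap : ValuationSubring ℚbar)
    (z : Γℚ → JZero p) : Prop where
  finiteLevel : IsFiniteLevel z
  cocycle : ∀ σ τ : Γℚ, z (σ * τ) = z σ + σ • z τ
  mem : ∀ σ, z σ ∈ H
  unramified : ∀ q : ℕ, q.Prime → q ≠ l → q ≠ p → ∀ A : ValuationSubring ℚbar, A.LiesOverPrime q →
    ∀ σ ∈ A.inertiaSubgroupIn ℚ, z σ = 0
  atP : ∀ σ ∈ Ap.inertiaSubgroupIn ℚ, z σ = 0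
  atL : ∃ y : JZero p, ∀ σ ∈ Al.inertiaSubgroupIn ℚ, z σ = σ • y - y

/-- The Selmer group of cocycles with values in `H`. -/
def selmer (H : AddSubgroup (JZero p)) (l : ℕ) (Al Ap : ValuationSubring ℚbar) :
    AddSubgroup (Γℚ → JZero p) where
  carrier := {z | IsSelmer H l Al Ap z}
  zero_mem' :=
    { finiteLevel := ⟨⊥, inferInstance, fun _ _ _ => rfl⟩
      cocycle := fun σ τ => by simp
      mem := fun σ => H.zero_mem
      unramified := fun _ _ _ _ _ _ _ _ => rfl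
      atP := fun _ _ => rfl
      atL := ⟨0, fun σ _ => by
        have h : σ • (0 : JZero p) = 0 := (DistribSMul.toAddMonoidHom (JZero p) σ).map_zero
        simp [h]⟩ }
  add_mem' := by
    rintro z z' ⟨⟨L, hL, hz⟩, hc, hm, hu, hp, ⟨y, hy⟩⟩
      ⟨⟨L', hL', hz'⟩, hc', hm', hu', hp', ⟨y', hy'⟩⟩
    refine ⟨⟨L ⊔ L', inferInstance, fun σ τ h => ?_⟩, fun σ τ => ?_,
      fun σ => H.add_mem (hm σ) (hm' σ),
      fun q hq h1 h2 A hA σ hσ => ?_, fun σ hσ => ?_, ⟨y + y', fun σ hσ => ?_⟩⟩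
    · simp only [Pi.add_apply, hz σ τ fun x hx => h x (le_sup_left (a := L) hx),
        hz' σ τ fun x hx => h x (le_sup_right (b := L') hx)]
    · simp only [Pi.add_apply, hc, hc', smul_add]; abel
    · simp only [Pi.add_apply, hu q hq h1 h2 A hA σ hσ, hu' q hq h1 h2 A hA σ hσ, add_zero]
    · simp only [Pi.add_apply, hp σ hσ, hp' σ hσ, add_zero]
    · simp only [Pi.add_apply, hy σ hσ, hy' σ hσ, smul_add]; abel
  neg_mem' := by
    rintro z ⟨⟨L, hL, hz⟩, hc, hm, hu, hp, ⟨y, hy⟩⟩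
    refine ⟨⟨L, hL, fun σ τ h => ?_⟩, fun σ τ => ?_, fun σ => H.neg_mem (hm σ),
      fun q hq h1 h2 A hA σ hσ => ?_, fun σ hσ => ?_, ⟨-y, fun σ hσ => ?_⟩⟩
    · simp only [Pi.neg_apply, hz σ τ h]
    · simp only [Pi.neg_apply, hc, smul_neg]; abel
    · simp only [Pi.neg_apply, hu q hq h1 h2 A hA σ hσ, neg_zero]
    · simp only [Pi.neg_apply, hp σ hσ, neg_zero]
    · simp only [Pi.neg_apply, hy σ hσ, smul_neg]; abel

omit [NeZero p] in
/-- Membership in `selmer` is `IsSelmer`. -/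
theorem mem_selmer {H : AddSubgroup (JZero p)} {l : ℕ} {Al Ap : ValuationSubring ℚbar}
    {z : Γℚ → JZero p} : z ∈ selmer H l Al Ap ↔ IsSelmer H l Al Ap z := Iff.rfl

/-- What the formal group at `l` provides for a subgroup `G` of the `l`-torsion: `K` is the kernel
of specialisation, inertia acts on `G ∩ K` by the cyclotomic character, `G ∩ K` has at most `l ^ g`
elements, and the local cocycle of a point pairs trivially with the Kummer character of `±l`. -/
structure FormalData (l : ℕ) (Al : ValuationSubring ℚbar) (G : AddSubgroup (JZero p)) (g : ℕ) where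
  /-- the kernel of specialisation -/
  K : AddSubgroup (JZero p)
  sub_mem : ∀ σ ∈ Al.inertiaSubgroupIn ℚ, ∀ y : JZero p, σ • y - y ∈ K
  inertia_smul : ∀ σ ∈ Al.inertiaSubgroupIn ℚ, ∀ x ∈ G, x ∈ K → ∀ c : ℕ,
    (∀ ζ : ℚbar, ζ ^ l = 1 → σ ζ = ζ ^ c) → σ • x = c • x
  card_le : Nat.card ↥(G ⊓ K) ≤ l ^ g
  kummer : ∀ y : JZero p, (∀ σ ∈ Al.inertiaSubgroupIn ℚ, σ • y - y ∈ G) →
    ∀ f : JZero p → ZMod l, (∀ a ∈ G ⊓ K, ∀ b ∈ G ⊓ K, f (a + b) = f a + f b) →
    ∀ ζ : ℚbar, IsPrimitiveRoot ζ l → ∀ lam : ℚbar, (lam ^ l = l ∨ lam ^ l = -(l : ℚbar)) →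
    ∀ c : ZMod l, (∀ σ ∈ Al.inertiaSubgroupIn ℚ, σ ζ = ζ → ∀ j : ℕ, σ lam = ζ ^ j * lam →
      f (σ • y - y) = c * j) → c = 0

/-- The global properties of the Eisenstein piece of the `l`-torsion. -/
structure EisensteinPiece (l : ℕ) (G : AddSubgroup (JZero p)) : Prop where
  torsion : ∀ x ∈ G, l • x = 0
  finite : Finite G
  stable : ∀ σ : Γℚ, ∀ x ∈ G, σ • x ∈ G
  finiteLevel : ∃ L : IntermediateField ℚ ℚbar, FiniteDimensional ℚ L ∧
    ∀ σ : Γℚ, (∀ x ∈ L, σ x = x) → ∀ x ∈ G, σ • x = x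
  unramified : ∀ q : ℕ, q.Prime → q ≠ l → q ≠ p → ∀ A : ValuationSubring ℚbar, A.LiesOverPrime q →
    ∀ σ ∈ A.inertiaSubgroupIn ℚ, ∀ x ∈ G, σ • x = x
  eisenstein : ∀ q : ℕ, q.Prime → q ≠ l → q ≠ p → ∀ A : ValuationSubring ℚbar, A.LiesOverPrime q →
    ∀ σ : Γℚ, A.IsFrobeniusAt σ q → ∃ n : ℕ, ∀ x ∈ G,
      (fun y : JZero p => σ • σ • y - (1 + q) • (σ • y) + q • y)^[n] x = 0

end Fermat.Agent.MazurStep.Global
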