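import Mathlib

/-!
# Linear algebra of an eigen-block at `p`

For a subspace `W` of dimension at most two with `N ^ 2 = 0`, `F N = q N F`, a quadratic relation
for `F` and `F ≠ q` on `W`, `block_le` gives
`3 dim W ≤ 2 (dim (W ∩ ker N) + dim (N W + (F - q) W))`. `exists_apply_ne_smul` supplies the last
hypothesis from a second operator, and `rank_map_le` says that base change does not raise ranks.
-/

set_option autoImplicit false

noncomputable section

open Matrix

namespace Fermat.Agent.MazurStep.Global

/-! ### Dimensions -/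

theorem finrank_finset_sup {K V : Type*} [Field K] [AddCommGroup V] [Module K V]
    [FiniteDimensional K V] {ι : Type*} {W : ι → Submodule K V} (h : iSupIndep W) (s : Finset ι) :
    Module.finrank K ↥(s.sup W) = ∑ i ∈ s, Module.finrank K (W i) := by
  classical
  induction s using Finset.induction_on with
  | empty => simp
  | insert a s ha ih =>
    have hdisj : Disjoint (W a) (s.sup W) := by
      rw [Finset.sup_eq_iSup]
      exact h.disjoint_biSup (y := (s : Set ι)) (by simpa using ha)
    have h2 := Submodule.finrank_sup_add_finrank_inf_eq (W a) (s.sup W)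
    rw [disjoint_iff.mp hdisj, finrank_bot, add_zero] at h2
    rw [Finset.sup_insert, h2, Finset.sum_insert ha, ih]

/-- The rank does not grow under extension of scalars. -/
theorem rank_map_le {K F : Type*} [Field K] [Field F] (ι : K →+* F) {m n : Type*} [Fintype m]
    [DecidableEq m] [Fintype n] [DecidableEq n] (M : Matrix m n K) : (M.map ι).rank ≤ M.rank := by
  let b := Module.finBasis K (LinearMap.range M.mulVecLin)
  have hle : LinearMap.range (M.map ι).mulVecLin ≤
      Submodule.span F (Set.range fun i => ι ∘ (b i : m → K)) := by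
    rw [Matrix.range_mulVecLin, Submodule.span_le]
    rintro _ ⟨j, rfl⟩
    have hc : M.col j ∈ LinearMap.range M.mulVecLin := by
      rw [Matrix.range_mulVecLin]; exact Submodule.subset_span ⟨j, rfl⟩
    have h := congrArg Subtype.val (b.sum_repr ⟨M.col j, hc⟩)
    have e : (M.map ι).col j = ∑ i, ι (b.repr ⟨M.col j, hc⟩ i) • (ι ∘ (b i : m → K)) := by
      funext x
      have hx := congrArg ι (congrFun h x)
      simp only [AddSubmonoidClass.coe_finsetSum, SetLike.val_smul, Finset.sum_apply,
        Pi.smul_apply, smul_eq_mul, map_sum, map_mul] at hx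
      simp only [Finset.sum_apply, Pi.smul_apply, smul_eq_mul, Function.comp_apply]
      exact hx.symm
    rw [SetLike.mem_coe, e]
    exact Submodule.sum_mem _ fun i _ => Submodule.smul_mem _ _ (Submodule.subset_span ⟨i, rfl⟩)
  refine (Submodule.finrank_mono hle).trans ((finrank_range_le_card _).trans ?_)
  rw [Fintype.card_fin]
  exact le_rfl

/-! ### One block -/

variable {K V : Type*} [Field K] [AddCommGroup V] [Module K V] [FiniteDimensional K V]

omit [FiniteDimensional K V] in
/-- An operator with `a² - t a + c = 0` on a space on which some operator satisfying such a relation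
is not scalar is not the scalar `q`, when the relations are multiplicative in the constant. -/
theorem exists_apply_ne_smul {W : Submodule K V} {F C : Module.End K V} {q a a' χ : K} (hq : q ≠ 0)
    (hq1 : q ≠ 1) (hχ : χ ≠ 0) (hCW : ∀ w ∈ W, C w ∈ W)
    (hC : ∀ w ∈ W, C (C w) - a • C w + χ • w = 0)
    (hFC : ∀ w ∈ W, F (C (F (C w))) - a' • F (C w) + (q * χ) • w = 0)
    (hns : ∀ s : K, ∃ w ∈ W, C w ≠ s • w) : ∃ w ∈ W, F w ≠ q • w := by
  by_contra hcon
  push Not at hcon
  have key : ∀ w ∈ W, (q ^ 2 * a - q * a') • C w + (q * χ * (1 - q)) • w = 0 := by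
    intro w hw
    have h1 := hFC w hw
    rw [hcon _ (hCW w hw), map_smul, map_smul, hcon _ (hCW _ (hCW w hw))] at h1
    have h2 := congrArg (q ^ 2 • ·) (hC w hw)
    simp only [smul_add, smul_sub, smul_smul, smul_zero] at h1 h2
    have h3 : (q ^ 2 * a - q * a') • C w + (q * χ * (1 - q)) • w =
        ((q * q) • C (C w) - (a' * q) • C w + (q * χ) • w) -
          ((q ^ 2) • C (C w) - (q ^ 2 * a) • C w + (q ^ 2 * χ) • w) := by
      rw [← sq, mul_comm a' q, sub_smul, mul_sub, mul_one, sub_smul,
        show q * χ * q = q ^ 2 * χ by ring]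
      abel
    rw [h3, h1, h2, sub_zero]
  have hβ : q * χ * (1 - q) ≠ 0 := mul_ne_zero (mul_ne_zero hq hχ) (sub_ne_zero.mpr (Ne.symm hq1))
  by_cases hα : q ^ 2 * a - q * a' = 0
  · obtain ⟨w, hw, hne⟩ := hns 0
    have h := key w hw
    rw [hα, zero_smul, zero_add, smul_eq_zero] at h
    exact hne (by rw [h.resolve_left hβ, map_zero, smul_zero])
  · obtain ⟨w, hw, hne⟩ := hns (-(q * χ * (1 - q)) / (q ^ 2 * a - q * a'))
    refine hne (smul_right_injective V hα ?_)
    show (q ^ 2 * a - q * a') • C w = _
    beta_reduce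
    rw [smul_smul, mul_div_cancel₀ _ hα, neg_smul, eq_neg_iff_add_eq_zero]
    exact key w hw

/-- The inequality on one block. -/
theorem block_le {W : Submodule K V} {N F : Module.End K V} {q a : K} (hW2 : Module.finrank K W ≤ 2)
    (hq : q ≠ 0) (hq1 : q ≠ 1) (hq2 : q ≠ -1) (hN2 : ∀ w, N (N w) = 0)
    (hFN : ∀ w, F (N w) = q • N (F w)) (hNW : ∀ w ∈ W, N w ∈ W)
    (hquad : ∀ w ∈ W, F (F w) - a • F w + q • w = 0) (hne : ∃ w ∈ W, F w ≠ q • w) :
    3 * Module.finrank K W ≤ 2 * (Module.finrank K ↥(W ⊓ LinearMap.ker N) +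
      Module.finrank K ↥(W.map N ⊔ W.map (F - q • (1 : Module.End K V)))) := by
  set L := W.map N with hL
  set B := L ⊔ W.map (F - q • (1 : Module.End K V)) with hB
  by_cases hzero : ∀ w ∈ W, N w = 0
  · have h1 : W ⊓ LinearMap.ker N = W := inf_eq_left.mpr fun w hw => hzero w hw
    obtain ⟨w, hw, hwne⟩ := hne
    have h2 : 0 < Module.finrank K B := by
      rw [Module.finrank_pos_iff_exists_ne_zero]
      refine ⟨⟨(F - q • (1 : Module.End K V)) w,
        le_sup_right (a := L) (Submodule.mem_map_of_mem hw)⟩,
        fun h => hwne ?_⟩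
      have := congrArg Subtype.val h
      simpa [sub_eq_zero, Module.End.one_apply] using this
    rw [h1]
    omega
  push Not at hzero
  obtain ⟨u, hu, hNu⟩ := hzero
  have hker : 0 < Module.finrank K ↥(W ⊓ LinearMap.ker N) := by
    rw [Module.finrank_pos_iff_exists_ne_zero]
    exact ⟨⟨N u, hNW u hu, hN2 u⟩, fun h => hNu (congrArg Subtype.val h)⟩
  have hlt : L < B := by
    refine lt_of_le_of_ne le_sup_left fun heq => ?_
    have hsub : (F - q • (1 : Module.End K V)) u ∈ L := by
      rw [heq]
      exact le_sup_right (a := L) (Submodule.mem_map_of_mem hu)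
    obtain ⟨u', -, hu'⟩ := Submodule.mem_map.mp hsub
    have hFu : F u = q • u + N u' := by
      rw [hu']; simp [Module.End.one_apply]
    have e1 : N (F u) = q • N u := by rw [hFu, map_add, hN2, add_zero, map_smul]
    have e2 : F (N u) = (q * q) • N u := by rw [hFN, e1, smul_smul]
    have e3 : N (F (F u)) = (q * q) • N u := by
      have h := hFN (F u)
      rw [e1, map_smul, e2] at h
      exact (smul_right_injective V hq h).symm
    have hA := congrArg N (hquad u hu)
    rw [map_add, map_sub, map_smul, map_smul, e3, e1, map_zero, smul_smul, ← sub_smul, ← add_smul,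
      smul_eq_zero] at hA
    have hB' := hquad (N u) (hNW u hu)
    rw [e2, map_smul, e2, smul_smul, smul_smul, ← sub_smul, ← add_smul, smul_eq_zero] at hB'
    have hA' := hA.resolve_right hNu
    have hB'' := hB'.resolve_right hNu
    have h : q * ((q - 1) ^ 2 * (q + 1)) = 0 := by linear_combination hB'' - q * hA'
    simp only [mul_eq_zero, pow_eq_zero_iff two_ne_zero, sub_eq_zero] at h
    rcases h with h | h | h
    · exact hq h
    · exact hq1 h
    · exact hq2 (eq_neg_of_add_eq_zero_left h)
  have hLpos : 0 < Module.finrank K L := by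
    rw [Module.finrank_pos_iff_exists_ne_zero]
    exact ⟨⟨N u, Submodule.mem_map_of_mem hu⟩, fun h => hNu (congrArg Subtype.val h)⟩
  have := Submodule.finrank_lt_finrank_of_lt hlt
  omega

end Fermat.Agent.MazurStep.Global
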