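import Fermat.Agent.MazurStep.Global.Relation
import Fermat.Agent.MazurStep.Global.Block

/-!
# Ranks of the Tate module at `p`

On an idempotent piece `V` of the Tate module, with `N = R τ - 1` and `F = R φ`,
`3 dim V ≤ 2 (dim (V ∩ ker N) + dim (N V + (F - p) V))`.
-/

set_option autoImplicit false

noncomputable section

open Matrix
open CuspForm (heckeAlgebra)

namespace Fermat.Agent.MazurStep.Global

open Fermat.Agent.GalRep Fermat.Agent.Cosets

local notation "Γℚ" => AlgebraicClosure ℚ ≃ₐ[ℚ] AlgebraicClosure ℚ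

/-! ### Subspaces cut out by matrices -/

/-- The dimension of `V ∩ ker N` as the corank of a stacked matrix. -/
theorem finrank_inf_ker {K : Type*} [Field K] {d : ℕ} {E N : Matrix (Fin d) (Fin d) K}
    (hE : E * E = E) :
    Module.finrank K ↥(LinearMap.range (toLin' E) ⊓ LinearMap.ker (toLin' N)) +
      (fromRows (1 - E) N).rank = d := by
  have hker : LinearMap.range (toLin' E) ⊓ LinearMap.ker (toLin' N) =
      LinearMap.ker (fromRows (1 - E) N).mulVecLin := by
    ext v
    simp only [Submodule.mem_inf, LinearMap.mem_range, LinearMap.mem_ker, toLin'_apply,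
      mulVecLin_apply, fromRows_mulVec, sub_mulVec, one_mulVec, funext_iff, Pi.zero_apply]
    constructor
    · rintro ⟨⟨w, hw⟩, hN⟩ (i | i)
      · have hv : E *ᵥ w = v := funext hw
        rw [← hv, mulVec_mulVec, hE]
        simp
      · exact hN i
    · intro h
      refine ⟨⟨v, fun i => ?_⟩, fun i => h (Sum.inr i)⟩
      have := h (Sum.inl i)
      simp only [Sum.elim_inl, Pi.sub_apply, sub_eq_zero] at this
      exact this.symm
  rw [hker, Matrix.rank, add_comm, LinearMap.finrank_range_add_finrank_ker, Module.finrank_fin_fun]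

theorem finrank_map_sup {K : Type*} [Field K] {d : ℕ} (E A B : Matrix (Fin d) (Fin d) K) :
    Module.finrank K ↥((LinearMap.range (toLin' E)).map (toLin' A) ⊔
      (LinearMap.range (toLin' E)).map (toLin' B)) = (fromCols (A * E) (B * E)).rank := by
  rw [← LinearMap.range_comp, ← LinearMap.range_comp, ← toLin'_mul, ← toLin'_mul, Matrix.rank]
  congr 2
  all_goals
    ext v
    simp only [Submodule.mem_sup, LinearMap.mem_range, toLin'_apply, mulVecLin_apply,
      fromCols_mulVec]
    constructor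
    · rintro ⟨_, ⟨x, rfl⟩, _, ⟨y, rfl⟩, rfl⟩
      exact ⟨Sum.elim x y, by simp⟩
    · rintro ⟨z, rfl⟩
      exact ⟨_, ⟨z ∘ Sum.inl, rfl⟩, _, ⟨z ∘ Sum.inr, rfl⟩, rfl⟩

/-- The inequality over an algebraically closed field. -/
theorem three_mul_le_finrank_aux {p : ℕ} [NeZero p] (hp : p.Prime) {K : Type} [Field K] [CharZero K]
    [IsAlgClosed K] (ρ : Γℚ →* Matrix (Fin (homRank p)) (Fin (homRank p)) K) (χ : Γℚ →* K)
    (hχ0 : ∀ σ, χ σ ≠ 0)
    (hcom : ∀ σ t, Commute (ρ σ) ((latticeMat p t).map (Int.cast : ℤ → K)))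
    (hrel : ∀ σ, ρ σ + χ σ • ρ σ⁻¹ ∈ Submodule.span K
      (Set.range fun t : heckeAlgebra p 2 ∅ => (latticeMat p t).map (Int.cast : ℤ → K)))
    (hconj : ρ conjBar = -(parConjMat p).map (Int.cast : ℤ → K))
    (τ φ : Γℚ) (hτ2 : (ρ τ - 1) ^ 2 = 0) (hφτ : ρ φ * ρ τ = ρ τ ^ p * ρ φ)
    (hφp : χ φ = p) (E : Matrix (Fin (homRank p)) (Fin (homRank p)) K)
    (hE : E ∈ Algebra.adjoin K (Set.range fun q => (heckeMat p q).map (Int.cast : ℤ → K)))
    (hEE : IsIdempotentElem E) :
    3 * Module.finrank K ↥(LinearMap.range (toLin' E)) ≤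
      2 * (Module.finrank K ↥(LinearMap.range (toLin' E) ⊓ LinearMap.ker (toLin' (ρ τ - 1))) +
        Module.finrank K ↥((LinearMap.range (toLin' E)).map (toLin' (ρ τ - 1)) ⊔
          (LinearMap.range (toLin' E)).map (toLin' (ρ φ - (p : K) • 1)))) := by
  classical
  let f : heckeAlgebra p 2 ∅ → Module.End K (Fin (homRank p) → K) := fun t =>
    toLin' ((latticeMat p t).map (Int.cast : ℤ → K))
  let W : (heckeAlgebra p 2 ∅ → K) → Submodule K (Fin (homRank p) → K) := fun c =>
    ⨅ t, Module.End.eigenspace (f t) (c t)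
  have hW : ∀ (c : heckeAlgebra p 2 ∅ → K) (w : Fin (homRank p) → K), w ∈ W c ↔
      ∀ t, (latticeMat p t).map (Int.cast : ℤ → K) *ᵥ w = c t • w := fun c w => by
    simp [W, f]
  have hstab : ∀ (σ : Γℚ) (c : heckeAlgebra p 2 ∅ → K), ∀ w ∈ W c, ρ σ *ᵥ w ∈ W c := by
    intro σ c w hw
    rw [hW] at hw ⊢
    intro t
    rw [mulVec_mulVec, ← (hcom σ t).eq, ← mulVec_mulVec, hw, mulVec_smul]
  have hspan : ∀ (M : Matrix (Fin (homRank p)) (Fin (homRank p)) K),
      M ∈ Submodule.span K (Set.range fun t : heckeAlgebra p 2 ∅ =>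
        (latticeMat p t).map (Int.cast : ℤ → K)) →
      ∀ c : heckeAlgebra p 2 ∅ → K, ∃ a : K, ∀ w ∈ W c, M *ᵥ w = a • w := by
    intro M hM c
    induction hM using Submodule.span_induction with
    | mem M hM =>
      obtain ⟨t, rfl⟩ := hM
      exact ⟨c t, fun w hw => (hW c w).1 hw t⟩
    | zero => exact ⟨0, fun w _ => by simp⟩
    | add x y _ _ hx hy =>
      obtain ⟨a, ha⟩ := hx
      obtain ⟨b, hb⟩ := hy
      exact ⟨a + b, fun w hw => by rw [add_mulVec, ha w hw, hb w hw, add_smul]⟩
    | smul r x _ hx =>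
      obtain ⟨a, ha⟩ := hx
      exact ⟨r * a, fun w hw => by rw [smul_mulVec, ha w hw, smul_smul]⟩
  have hquad : ∀ (σ : Γℚ) (c : heckeAlgebra p 2 ∅ → K), ∃ a : K, ∀ w ∈ W c,
      ρ σ *ᵥ (ρ σ *ᵥ w) - a • ρ σ *ᵥ w + χ σ • w = 0 := by
    intro σ c
    obtain ⟨a, ha⟩ := hspan _ (hrel σ) c
    refine ⟨a, fun w hw => ?_⟩
    rw [← mulVec_smul, ← ha w hw, add_mulVec, mulVec_add, smul_mulVec, mulVec_smul,
      mulVec_mulVec w (ρ σ) (ρ σ⁻¹), ← map_mul, mul_inv_cancel, map_one, one_mulVec]
    abel
  -- the idempotent on each block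
  have hEgen : ∀ M ∈ Algebra.adjoin K (Set.range fun q => (heckeMat p q).map (Int.cast : ℤ → K)),
      ∀ c : heckeAlgebra p 2 ∅ → K, ∃ e : K, ∀ w ∈ W c, M *ᵥ w = e • w := by
    intro M hM c
    induction hM using Algebra.adjoin_induction with
    | mem M hM =>
      obtain ⟨q, rfl⟩ := hM
      refine ⟨c (heckeOp p q), fun w hw => ?_⟩
      have := (hW c w).1 hw (heckeOp p q)
      rwa [latticeMat_heckeOp] at this
    | algebraMap r =>
      exact ⟨r, fun w _ => by rw [Algebra.algebraMap_eq_smul_one, smul_mulVec, one_mulVec]⟩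
    | add x y _ _ hx hy =>
      obtain ⟨a, ha⟩ := hx
      obtain ⟨b, hb⟩ := hy
      exact ⟨a + b, fun w hw => by rw [add_mulVec, ha w hw, hb w hw, add_smul]⟩
    | mul x y _ _ hx hy =>
      obtain ⟨a, ha⟩ := hx
      obtain ⟨b, hb⟩ := hy
      exact ⟨b * a, fun w hw => by
        rw [← mulVec_mulVec, hb w hw, mulVec_smul, ha w hw, smul_smul]⟩
  choose e he using hEgen E hE
  set V := LinearMap.range (toLin' E) with hV
  set N := toLin' (ρ τ - 1) with hN
  set G := toLin' (ρ φ - (p : K) • 1) with hG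
  have hWindep : iSupIndep W :=
    (Module.End.independent_iInf_maxGenEigenspace_of_forall_mapsTo f (fun i j μ =>
      Module.End.mapsTo_maxGenEigenspace_of_comm (f := f j) (g := f i) (by
        show f j * f i = f i * f j
        have h : ∀ x y : heckeAlgebra p 2 ∅, f x * f y = f (x * y) := fun x y => by
          simp only [f]
          rw [map_mul, Module.End.mul_eq_comp, ← toLin'_mul]
          exact congrArg _ (map_mul (Int.castRingHom K).mapMatrix _ _).symm
        rw [h, h, mul_comm]) μ)).mono fun c => iInf_mono fun t =>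
          Module.End.eigenspace_le_maxGenEigenspace
  have hfin : {c | W c ≠ ⊥}.Finite := WellFoundedGT.finite_ne_bot_of_iSupIndep hWindep
  let s : Finset (heckeAlgebra p 2 ∅ → K) := hfin.toFinset.filter fun c => e c ≠ 0
  have hs : ∀ c ∈ s, W c ≠ ⊥ ∧ e c = 1 := by
    intro c hc
    simp only [s, Finset.mem_filter, Set.Finite.mem_toFinset, Set.mem_ofPred_eq] at hc
    refine ⟨hc.1, ?_⟩
    obtain ⟨w, hw, hw0⟩ := Submodule.exists_mem_ne_zero_of_ne_bot hc.1
    have h := congrArg (fun M => M *ᵥ w) hEE.eq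
    simp only [← mulVec_mulVec, he c w hw, mulVec_smul, smul_smul] at h
    have h' : (e c * e c - e c) • w = 0 := by rw [sub_smul, h, sub_self]
    have h'' : e c * (e c - 1) = 0 := by linear_combination (smul_eq_zero.mp h').resolve_right hw0
    exact sub_eq_zero.mp ((mul_eq_zero.mp h'').resolve_left hc.2)
  have hVle : V ≤ s.sup W := by
    rintro _ ⟨v, rfl⟩
    have hv : v ∈ ⨆ c, W c := by
      rw [show (⨆ c, W c) = ⊤ from iSup_eigen_eq_top hp]; exact Submodule.mem_top
    rw [toLin'_apply]
    induction hv using Submodule.iSup_induction' with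
    | mem c w hw =>
      rw [he c w hw]
      by_cases h0 : e c = 0
      · rw [h0, zero_smul]; exact zero_mem _
      by_cases hw0 : w = 0
      · rw [hw0, smul_zero]; exact zero_mem _
      refine Submodule.smul_mem _ _ (Finset.le_sup (f := W) (Finset.mem_filter.mpr
        ⟨hfin.mem_toFinset.mpr fun h => hw0 ?_, h0⟩) hw)
      rw [h, Submodule.mem_bot] at hw
      exact hw
    | zero => rw [mulVec_zero]; exact zero_mem _
    | add x y _ _ hx hy => rw [mulVec_add]; exact add_mem hx hy
  have hWV : ∀ c ∈ s, W c ≤ V := fun c hc w hw =>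
    ⟨w, by rw [toLin'_apply, he c w hw, (hs c hc).2, one_smul]⟩
  have hNW : ∀ c, ∀ w ∈ W c, N w ∈ W c := fun c w hw => by
    rw [hN, toLin'_apply, sub_mulVec, one_mulVec]
    exact sub_mem (hstab τ c w hw) hw
  -- each block
  have hblock : ∀ c ∈ s, 3 * Module.finrank K (W c) ≤
      2 * (Module.finrank K ↥(W c ⊓ LinearMap.ker N) +
        Module.finrank K ↥((W c).map N ⊔ (W c).map G)) := by
    intro c hc
    obtain ⟨w, hw, hw0⟩ := Submodule.exists_mem_ne_zero_of_ne_bot (hs c hc).1
    obtain ⟨κ, hκ⟩ := exists_ringHom_of_eigen hw0 ((hW c w).1 hw)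
    obtain ⟨hdim, hJ⟩ := eigenspace_block κ
    have hWeq : eigenspace (heckeMat p) (fun q => κ (heckeOp p q)) = W c := by
      refine le_antisymm (fun v hv => (hW c v).2 fun t => ?_) fun v hv => ?_
      · rw [← hκ]
        induction t using heckeAlgebra_induction with
        | op q => rw [latticeMat_heckeOp]; exact (mem_eigenspace _ _ _).1 hv q
        | int r =>
          show (Int.castRingHom K).mapMatrix (latticeMat p r) *ᵥ v = κ r • v
          rw [map_intCast, map_intCast, map_intCast, intCast_mulVec]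
        | add x y hx hy =>
          rw [map_add, map_add, add_smul, ← hx, ← hy, ← add_mulVec]
          exact congrArg (· *ᵥ v) (map_add (Int.castRingHom K).mapMatrix _ _)
        | mul x y hx hy =>
          show (Int.castRingHom K).mapMatrix (latticeMat p (x * y)) *ᵥ v = _
          rw [map_mul, map_mul, map_mul, ← mulVec_mulVec]
          show (latticeMat p x).map (Int.cast : ℤ → K) *ᵥ
            ((latticeMat p y).map (Int.cast : ℤ → K) *ᵥ v) = _
          rw [hy, mulVec_smul, hx, smul_smul, mul_comm]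
      · rw [mem_eigenspace]
        intro q
        have := (hW c v).1 hv (heckeOp p q)
        rwa [latticeMat_heckeOp, ← hκ] at this
    rw [hWeq] at hdim hJ
    have hN2 : ∀ v, N (N v) = 0 := fun v => by
      rw [hN, toLin'_apply, toLin'_apply, mulVec_mulVec, ← sq, hτ2, zero_mulVec]
    have hFN : ∀ v, toLin' (ρ φ) (N v) = (p : K) • N (toLin' (ρ φ) v) := fun v => by
      have hpow : ρ τ ^ p = 1 + (p : K) • (ρ τ - 1) := by
        have hgen : ∀ n : ℕ, ρ τ ^ n = 1 + (n : K) • (ρ τ - 1) := by
          intro n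
          induction n with
          | zero => simp
          | succ n ih =>
            have hz : (ρ τ - 1) * ρ τ = ρ τ - 1 := by
              have h2 : (ρ τ - 1) * (ρ τ - 1) = 0 := by rw [← sq]; exact hτ2
              rwa [mul_sub, mul_one, sub_eq_zero] at h2
            rw [pow_succ, ih, add_mul, one_mul, smul_mul_assoc, hz, Nat.cast_succ, add_smul,
              one_smul]
            abel
        exact hgen p
      have hm : ρ φ * (ρ τ - 1) = (p : K) • ((ρ τ - 1) * ρ φ) := by
        rw [mul_sub, mul_one, hφτ, hpow, add_mul, one_mul, smul_mul_assoc, add_sub_cancel_left]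
      rw [hN, toLin'_apply, toLin'_apply, toLin'_apply, toLin'_apply, mulVec_mulVec, hm,
        smul_mulVec, ← mulVec_mulVec]
    obtain ⟨a, ha⟩ := hquad φ c
    obtain ⟨a₁, ha₁⟩ := hquad conjBar c
    obtain ⟨a₂, ha₂⟩ := hquad (φ * conjBar) c
    have hne := exists_apply_ne_smul (W := W c) (F := toLin' (ρ φ)) (C := toLin' (ρ conjBar))
      (q := (p : K)) (a := a₁) (a' := a₂) (Nat.cast_ne_zero.mpr hp.ne_zero)
      (by exact_mod_cast hp.ne_one) (hχ0 conjBar)
      (fun v hv => by rw [toLin'_apply]; exact hstab _ c v hv)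
      (fun v hv => by simpa using ha₁ v hv)
      (fun v hv => by
        have h := ha₂ v hv
        rw [map_mul, map_mul, hφp] at h
        simpa [← mulVec_mulVec] using h)
      (fun r => by
        obtain ⟨v, hv, hne⟩ := hJ (-r)
        refine ⟨v, hv, fun h => hne ?_⟩
        rw [toLin'_apply, hconj, neg_mulVec, neg_eq_iff_eq_neg] at h
        rw [h, neg_smul])
    have hb := block_le (W := W c) (N := N) (F := toLin' (ρ φ)) (a := a) (q := (p : K)) hdim
      (Nat.cast_ne_zero.mpr hp.ne_zero) (by exact_mod_cast hp.ne_one) (fun h => by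
        have : ((p + 1 : ℕ) : K) = 0 := by rw [Nat.cast_add, h, Nat.cast_one, neg_add_cancel]
        exact Nat.succ_ne_zero p (by exact_mod_cast this))
      hN2 hFN (hNW c)
      (fun v hv => by have h := ha v hv; rw [hφp] at h; simpa using h) hne
    rwa [show toLin' (ρ φ) - (p : K) • 1 = G by
      rw [hG, map_sub, map_smul, toLin'_one]; rfl] at hb
  -- assemble
  have hA : s.sup (fun c => W c ⊓ LinearMap.ker N) ≤ V ⊓ LinearMap.ker N :=
    Finset.sup_le fun c hc => inf_le_inf_right _ (hWV c hc)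
  have hB : s.sup (fun c => (W c).map N ⊔ (W c).map G) ≤ V.map N ⊔ V.map G :=
    Finset.sup_le fun c hc => sup_le_sup (Submodule.map_mono (hWV c hc))
      (Submodule.map_mono (hWV c hc))
  have hAind : iSupIndep (fun c => W c ⊓ LinearMap.ker N) := hWindep.mono fun c => inf_le_left
  have hBind : iSupIndep (fun c => (W c).map N ⊔ (W c).map G) := hWindep.mono fun c => by
    refine sup_le ?_ ?_ <;> rintro _ ⟨w, hw, rfl⟩
    · exact hNW c w hw
    · rw [hG, toLin'_apply, sub_mulVec, smul_mulVec, one_mulVec]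
      exact sub_mem (hstab φ c w hw) (Submodule.smul_mem _ _ hw)
  have h1 := Submodule.finrank_mono hVle
  have h2 := Submodule.finrank_mono hA
  have h3 := Submodule.finrank_mono hB
  rw [finrank_finset_sup hWindep] at h1
  rw [finrank_finset_sup hAind] at h2
  rw [finrank_finset_sup hBind] at h3
  have h4 := Finset.sum_le_sum hblock
  simp only [← Finset.mul_sum, Finset.sum_add_distrib] at h4
  omega

/-- The rank inequality at `p` on an idempotent piece of the Tate module. -/
theorem three_mul_le_finrank {p l : ℕ} [NeZero p] [Fact l.Prime] (hp : p.Prime)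
    (hred : TorsionReduction p l)
    (R : Γℚ →* Matrix (Fin (homRank p)) (Fin (homRank p)) ℤ_[l])
    (hR : ∀ n σ, (R σ).map (PadicInt.toZModPow n) = torsRho p (l ^ n) σ)
    (τ φ : Γℚ) (hτ2 : (R τ - 1) ^ 2 = 0) (hφτ : R φ * R τ = R τ ^ p * R φ)
    (hφp : cycl l φ = p) (E : Matrix (Fin (homRank p)) (Fin (homRank p)) ℚ_[l])
    (hE : E ∈ Algebra.adjoin ℚ_[l]
      (Set.range fun q => (heckeMat p q).map (Int.cast : ℤ → ℚ_[l])))
    (hEE : IsIdempotentElem E) :
    3 * Module.finrank ℚ_[l] ↥(LinearMap.range (toLin' E)) ≤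
      2 * (Module.finrank ℚ_[l] ↥(LinearMap.range (toLin' E) ⊓
          LinearMap.ker (toLin' ((R τ - 1).map ((↑) : ℤ_[l] → ℚ_[l])))) +
        Module.finrank ℚ_[l]
          ↥((LinearMap.range (toLin' E)).map (toLin' ((R τ - 1).map ((↑) : ℤ_[l] → ℚ_[l]))) ⊔
            (LinearMap.range (toLin' E)).map
              (toLin' ((R φ).map ((↑) : ℤ_[l] → ℚ_[l]) - (p : ℚ_[l]) • 1)))) := by
  classical
  let K := AlgebraicClosure ℚ_[l]
  let ι : ℚ_[l] →+* K := algebraMap ℚ_[l] K
  let j : ℤ_[l] →+* K := ι.comp PadicInt.Coe.ringHom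
  have hmapZ : ∀ M : Matrix (Fin (homRank p)) (Fin (homRank p)) ℤ,
      (M.map (Int.cast : ℤ → ℤ_[l])).map j = M.map (Int.cast : ℤ → K) := fun M =>
    Matrix.ext fun a b => map_intCast j _
  have hext : ∀ A B : Matrix (Fin (homRank p)) (Fin (homRank p)) ℤ_[l],
      (∀ n, A.map (PadicInt.toZModPow n) = B.map (PadicInt.toZModPow n)) → A = B :=
    fun A B h => Matrix.ext fun a b => PadicInt.ext_of_toZModPow.mp fun n =>
      congrFun (congrFun (h n) a) b
  have hmapn : ∀ (M : Matrix (Fin (homRank p)) (Fin (homRank p)) ℤ) (n : ℕ),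
      (M.map (Int.cast : ℤ → ℤ_[l])).map (PadicInt.toZModPow n) =
        M.map (Int.cast : ℤ → ZMod (l ^ n)) := fun M n =>
    Matrix.ext fun a b => map_intCast (PadicInt.toZModPow n) _
  let ρ : Γℚ →* Matrix (Fin (homRank p)) (Fin (homRank p)) K := j.mapMatrix.toMonoidHom.comp R
  let χ : Γℚ →* K := j.toMonoidHom.comp (cycl l)
  have hcomZ : ∀ σ t, Commute (R σ) ((latticeMat p t).map (Int.cast : ℤ → ℤ_[l])) := by
    intro σ t
    induction t using heckeAlgebra_induction with
    | op q =>
      refine hext _ _ fun n => ?_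
      rw [latticeMat_heckeOp, Matrix.map_mul, Matrix.map_mul, hR, hmapn]
      exact torsRho_commute p (l ^ n) σ q
    | int r =>
      show Commute _ ((Int.castRingHom ℤ_[l]).mapMatrix (latticeMat p r))
      rw [map_intCast, map_intCast]; exact Int.commute_cast _ r
    | add x y hx hy =>
      show Commute _ ((Int.castRingHom ℤ_[l]).mapMatrix (latticeMat p (x + y)))
      rw [map_add, map_add]; exact hx.add_right hy
    | mul x y hx hy =>
      show Commute _ ((Int.castRingHom ℤ_[l]).mapMatrix (latticeMat p (x * y)))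
      rw [map_mul, map_mul]; exact hx.mul_right hy
  have hconjZ : R conjBar = -(parConjMat p).map (Int.cast : ℤ → ℤ_[l]) := by
    refine hext _ _ fun n => ?_
    rw [hR, torsRho_conjBar]
    exact Matrix.ext fun a b => by simp [Matrix.map_apply]
  have hEmap : ∀ M ∈ Algebra.adjoin ℚ_[l]
      (Set.range fun q => (heckeMat p q).map (Int.cast : ℤ → ℚ_[l])),
      M.map ι ∈ Algebra.adjoin K (Set.range fun q => (heckeMat p q).map (Int.cast : ℤ → K)) := by
    intro M hM
    induction hM using Algebra.adjoin_induction with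
    | mem M hM =>
      obtain ⟨q, rfl⟩ := hM
      refine Algebra.subset_adjoin ⟨q, ?_⟩
      exact Matrix.ext fun a b => (map_intCast ι _).symm
    | algebraMap r =>
      have e : (algebraMap ℚ_[l] (Matrix (Fin (homRank p)) (Fin (homRank p)) ℚ_[l]) r).map ι =
          algebraMap K (Matrix (Fin (homRank p)) (Fin (homRank p)) K) (ι r) := by
        rw [Matrix.algebraMap_eq_diagonal, Matrix.algebraMap_eq_diagonal,
          Matrix.diagonal_map (map_zero ι)]
        rfl
      rw [e]; exact Subalgebra.algebraMap_mem _ _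
    | add x y _ _ hx hy => rw [Matrix.map_add _ (map_add ι)]; exact add_mem hx hy
    | mul x y _ _ hx hy => rw [Matrix.map_mul]; exact mul_mem hx hy
  have hsmul : ∀ (a : ℤ_[l]) (M : Matrix (Fin (homRank p)) (Fin (homRank p)) ℤ_[l]),
      (a • M).map j = j a • M.map j := fun a M => Matrix.ext fun i k => map_mul j a (M i k)
  have haux := three_mul_le_finrank_aux hp ρ χ
    (fun σ => (IsUnit.map χ (Group.isUnit σ)).ne_zero)
    (fun σ t => by
      have := (hcomZ σ t).map j.mapMatrix
      simp only [RingHom.mapMatrix_apply, hmapZ] at this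
      exact this)
    (fun σ => by
      have h := add_smul_inv_mem_span hred R hR σ
      have hlin : ∀ M ∈ Submodule.span ℤ_[l] (Set.range fun t : heckeAlgebra p 2 ∅ =>
          (latticeMat p t).map (Int.cast : ℤ → ℤ_[l])),
          M.map j ∈ Submodule.span K (Set.range fun t : heckeAlgebra p 2 ∅ =>
            (latticeMat p t).map (Int.cast : ℤ → K)) := by
        intro M hM
        induction hM using Submodule.span_induction with
        | mem M hM =>
          obtain ⟨t, rfl⟩ := hM
          rw [hmapZ]; exact Submodule.subset_span ⟨t, rfl⟩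
        | zero => rw [Matrix.map_zero _ (map_zero j)]; exact zero_mem _
        | add x y _ _ hx hy => rw [Matrix.map_add _ (map_add j)]; exact add_mem hx hy
        | smul r x _ hx =>
          rw [hsmul]; exact Submodule.smul_mem _ _ hx
      have h2 := hlin _ h
      rw [Matrix.map_add _ (map_add j), hsmul] at h2
      exact h2)
    (by
      show (R conjBar).map j = _
      rw [hconjZ, ← hmapZ]
      exact Matrix.ext fun a b => by simp [Matrix.map_apply])
    τ φ
    (by
      have := congrArg j.mapMatrix hτ2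
      rwa [map_pow, map_sub, map_one, map_zero] at this)
    (by
      have := congrArg j.mapMatrix hφτ
      rwa [map_mul, map_mul, map_pow] at this)
    (by show j (cycl l φ) = _; rw [hφp, map_natCast])
    (E.map ι) (hEmap E hE)
    (by show E.map ι * E.map ι = E.map ι; rw [← Matrix.map_mul, hEE.eq])
  -- compare the dimensions
  set Nl := (R τ - 1).map ((↑) : ℤ_[l] → ℚ_[l]) with hNl
  set Gl := (R φ).map ((↑) : ℤ_[l] → ℚ_[l]) - (p : ℚ_[l]) • 1 with hGl
  have eN : Nl.map ι = ρ τ - 1 := by
    show ((R τ - 1).map ((↑) : ℤ_[l] → ℚ_[l])).map ι = j.mapMatrix (R τ) - 1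
    rw [← map_one j.mapMatrix, ← map_sub]
    rfl
  have eG : Gl.map ι = ρ φ - (p : K) • 1 := by
    have e1 : ((p : ℚ_[l]) • (1 : Matrix (Fin (homRank p)) (Fin (homRank p)) ℚ_[l])).map ι =
        (p : K) • 1 := by
      rw [← Algebra.algebraMap_eq_smul_one, ← Algebra.algebraMap_eq_smul_one,
        Matrix.algebraMap_eq_diagonal, Matrix.algebraMap_eq_diagonal,
        Matrix.diagonal_map (map_zero ι)]
      exact congrArg Matrix.diagonal (funext fun _ => map_natCast ι p)
    rw [hGl, Matrix.map_sub _ (map_sub ι), e1]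
    rfl
  have hA := finrank_inf_ker (N := Nl) hEE.eq
  have hAK := finrank_inf_ker (E := E.map ι) (N := Nl.map ι)
    (by rw [← Matrix.map_mul, hEE.eq])
  have eS : fromRows (1 - E.map ι) (Nl.map ι) = (fromRows (1 - E) Nl).map ι := by
    rw [fromRows_map, Matrix.map_sub _ (map_sub ι), Matrix.map_one _ (map_zero ι) (map_one ι)]
  have hSle := rank_le_rank_map ι (fromRows (1 - E) Nl)
  rw [← eS] at hSle
  rw [← eN] at haux
  rw [← eG, finrank_map_sup, ← Matrix.map_mul, ← Matrix.map_mul, ← fromCols_map] at haux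
  rw [finrank_map_sup]
  have hTle := rank_map_le ι (fromCols (Nl * E) (Gl * E))
  have hEle : Module.finrank ℚ_[l] ↥(LinearMap.range (toLin' E)) ≤
      Module.finrank K ↥(LinearMap.range (toLin' (E.map ι))) := rank_le_rank_map ι E
  omega

end Fermat.Agent.MazurStep.Global
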