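import Fermat.Agent.MazurStep.Global.AtP
import Fermat.Agent.GalRep.Normalise

/-!
# The quadratic relation of every Galois element on the Tate module

For every `σ`, `R σ + χ(σ) R σ⁻¹` lies in the `ℤ_l`-span of the Hecke algebra, so that on every
joint eigenspace `R σ` satisfies a quadratic relation with constant term `χ(σ)`.
-/

set_option autoImplicit false

noncomputable section

open Matrix
open CuspForm (heckeAlgebra)

namespace Fermat.Agent.MazurStep.Global

open Fermat.Agent.GalRep Fermat.Agent.Cosets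

local notation "ℚbar" => AlgebraicClosure ℚ
local notation "Γℚ" => AlgebraicClosure ℚ ≃ₐ[ℚ] AlgebraicClosure ℚ

/-- If `x + c y` lies in a subring containing `c`, so does `x ^ j + c ^ j y ^ j` (`x y = y x = 1`,
`c` central). -/
theorem pow_add_mem {A : Type*} [Ring A] (S : Subring A) {x y c : A} (hxy : x * y = 1)
    (hyx : y * x = 1) (hcx : Commute c x) (hcy : Commute c y) (hc : c ∈ S) (h : x + c * y ∈ S) :
    ∀ j : ℕ, x ^ j + c ^ j * y ^ j ∈ S := by
  suffices ∀ j : ℕ, x ^ j + c ^ j * y ^ j ∈ S ∧ x ^ (j + 1) + c ^ (j + 1) * y ^ (j + 1) ∈ S from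
    fun j => (this j).1
  intro j
  induction j with
  | zero => exact ⟨by simpa using S.add_mem S.one_mem S.one_mem, by simpa using h⟩
  | succ j ih =>
    refine ⟨ih.2, ?_⟩
    have e : x ^ (j + 1 + 1) + c ^ (j + 1 + 1) * y ^ (j + 1 + 1) =
        (x ^ (j + 1) + c ^ (j + 1) * y ^ (j + 1)) * (x + c * y) - c * (x ^ j + c ^ j * y ^ j) := by
      have h1 : x ^ (j + 1) * (c * y) = c * x ^ j := by
        rw [← mul_assoc, ← (hcx.pow_right _).eq, mul_assoc, pow_succ, mul_assoc, hxy, mul_one]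
      have h2 : c ^ (j + 1) * y ^ (j + 1) * x = c * (c ^ j * y ^ j) := by
        rw [mul_assoc, pow_succ y, mul_assoc, hyx, mul_one, pow_succ' c, mul_assoc]
      have h3 : c ^ (j + 1) * y ^ (j + 1) * (c * y) = c ^ (j + 1 + 1) * y ^ (j + 1 + 1) := by
        rw [pow_succ c (j + 1), pow_succ y (j + 1), mul_assoc, ← mul_assoc (y ^ (j + 1)),
          ← (hcy.pow_right _).eq, mul_assoc, mul_assoc]
      rw [add_mul, mul_add, mul_add, h1, h2, h3, ← pow_succ, mul_add]
      abel
    rw [e]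
    exact S.sub_mem (S.mul_mem ih.2 h) (S.mul_mem hc ih.1)

/-- Finitely generated submodules over `ℤ_l` are closed. -/
theorem mem_of_forall_exists_sub_eq {l : ℕ} [Fact l.Prime] {M : Type*} [AddCommGroup M]
    [Module ℤ_[l] M] [Module.Finite ℤ_[l] M] (S : Submodule ℤ_[l] M) (x : M)
    (h : ∀ n : ℕ, ∃ s ∈ S, ∃ y : M, x - s = (l : ℤ_[l]) ^ n • y) : x ∈ S := by
  have hbot := Ideal.iInf_pow_smul_eq_bot_of_isLocalRing (M := M ⧸ S)
    (IsLocalRing.maximalIdeal ℤ_[l]) (IsLocalRing.maximalIdeal.isMaximal _).ne_top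
  rw [← Submodule.Quotient.mk_eq_zero S, ← Submodule.mem_bot ℤ_[l], ← hbot, Submodule.mem_iInf]
  intro n
  obtain ⟨s, hs, y, hy⟩ := h n
  have : (Submodule.Quotient.mk x : M ⧸ S) = (l : ℤ_[l]) ^ n • Submodule.Quotient.mk y := by
    rw [← Submodule.Quotient.mk_smul, Submodule.Quotient.eq, ← hy, sub_sub_cancel]
    exact hs
  rw [this]
  refine Submodule.smul_mem_smul (Ideal.pow_mem_pow ?_ n) Submodule.mem_top
  rw [PadicInt.maximalIdeal_eq_span_p]
  exact Ideal.mem_span_singleton_self _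

variable {p l : ℕ} [NeZero p] [Fact l.Prime]

/-- `ρ σ + χ(σ) ρ σ⁻¹` is a Hecke operator modulo `l ^ n`. -/
theorem exists_hecke_eq_mod (hred : TorsionReduction p l) (n : ℕ) (σ : Γℚ) :
    ∃ t : heckeAlgebra p 2 ∅,
      torsRho p (l ^ n) σ + PadicInt.toZModPow n (cycl l σ) • torsRho p (l ^ n) σ⁻¹ =
        (latticeMat p t).map (Int.cast : ℤ → ZMod (l ^ n)) := by
  set ρ := torsRho p (l ^ n)
  let f : heckeAlgebra p 2 ∅ →+* Matrix (Fin (homRank p)) (Fin (homRank p)) (ZMod (l ^ n)) :=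
    (Int.castRingHom (ZMod (l ^ n))).mapMatrix.comp (latticeMat p)
  have hinv : ∀ g : Γℚ, ρ g * ρ g⁻¹ = 1 ∧ ρ g⁻¹ * ρ g = 1 := fun g =>
    ⟨by rw [← map_mul, mul_inv_cancel, map_one], by rw [← map_mul, inv_mul_cancel, map_one]⟩
  have hcom : ∀ (g : Γℚ) (t : heckeAlgebra p 2 ∅), Commute (ρ g) (f t) := by
    intro g t
    induction t using heckeAlgebra_induction with
    | op q =>
      show Commute (ρ g) ((latticeMat p (heckeOp p q)).map (Int.cast : ℤ → ZMod (l ^ n)))
      rw [latticeMat_heckeOp]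
      exact torsRho_commute p (l ^ n) g q
    | int r => rw [map_intCast]; exact Int.commute_cast _ r
    | add x y hx hy => rw [map_add]; exact hx.add_right hy
    | mul x y hx hy => rw [map_mul]; exact hx.mul_right hy
  let c : Γℚ → ZMod (l ^ n) := fun g => PadicInt.toZModPow n (cycl l g)
  obtain ⟨L₁, hL₁, hρ⟩ := torsRho_finiteLevel p (l ^ n)
  obtain ⟨L₂, hL₂, hc⟩ := cycl_finiteLevel l n
  suffices h : ρ σ + c σ • ρ σ⁻¹ ∈ f.range by
    obtain ⟨t, ht⟩ := h
    exact ⟨t, ht.symm⟩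
  refine Density.forall_of_forall_frobenius (L₁ ⊔ L₂)
    (fun g => ρ g + c g • ρ g⁻¹ ∈ f.range) ?_ ?_ ?_ {q | q ∣ p * l}
    ((Set.finite_Iic (p * l)).subset fun q hq => Nat.le_of_dvd
      (Nat.mul_pos (NeZero.pos p) (Fact.out : l.Prime).pos) hq) ?_ σ
  · intro g g' hgg h
    have hfix : ∀ x ∈ L₁ ⊔ L₂, (g'⁻¹ * g) x = x := fun x hx => by
      rw [AlgEquiv.mul_apply, hgg x hx]
      exact g'.symm_apply_apply x
    have h1 : ρ g = ρ g' := by
      conv_lhs => rw [← mul_inv_cancel_left g' g, map_mul,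
        hρ _ (fun x hx => hfix x (le_sup_left (b := L₂) hx)), mul_one]
    have h2 : ρ g⁻¹ = ρ g'⁻¹ := by
      calc ρ g⁻¹ = ρ g⁻¹ * (ρ g' * ρ g'⁻¹) := by rw [(hinv g').1, mul_one]
        _ = ρ g'⁻¹ := by rw [← h1, ← mul_assoc, (hinv g).2, one_mul]
    have h3 : c g = c g' := by
      show PadicInt.toZModPow n (cycl l g) = _
      conv_lhs => rw [← mul_inv_cancel_left g' g, map_mul, map_mul,
        hc _ (fun x hx => hfix x (le_sup_right (a := L₁) hx)), mul_one]
    rwa [h1, h2, h3]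
  · rintro h g ⟨t, ht⟩
    refine ⟨t, ?_⟩
    have hc' : c (h * g * h⁻¹) = c g := by
      have e : cycl l (h * g * h⁻¹) = cycl l g := by
        rw [map_mul, map_mul, mul_comm (cycl l h), mul_assoc, ← map_mul, mul_inv_cancel, map_one,
          mul_one]
      exact congrArg (PadicInt.toZModPow n) e
    rw [hc', show (h * g * h⁻¹)⁻¹ = h * g⁻¹ * h⁻¹ by group, map_mul, map_mul, map_mul, map_mul,
      ← smul_mul_assoc, ← mul_smul_comm, ← add_mul, ← mul_add, ← ht, (hcom h t).eq, mul_assoc,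
      (hinv h).1, mul_one]
  · intro g j h
    have hC : ∀ M : Matrix (Fin (homRank p)) (Fin (homRank p)) (ZMod (l ^ n)),
        ((c g).val : Matrix (Fin (homRank p)) (Fin (homRank p)) (ZMod (l ^ n))) * M = c g • M :=
      fun M => by
        rw [← nsmul_eq_mul, ← Nat.cast_smul_eq_nsmul (ZMod (l ^ n)), ZMod.natCast_zmod_val]
    have hCj : ∀ (j : ℕ) (M : Matrix (Fin (homRank p)) (Fin (homRank p)) (ZMod (l ^ n))),
        ((c g).val : Matrix (Fin (homRank p)) (Fin (homRank p)) (ZMod (l ^ n))) ^ j * M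
          = c g ^ j • M := by
      intro j
      induction j with
      | zero => intro M; simp
      | succ j ih => intro M; rw [pow_succ, mul_assoc, hC, ih, smul_smul, ← pow_succ]
    have hmem := pow_add_mem f.range (hinv g).1 (hinv g).2 (Nat.cast_commute _ _)
      (Nat.cast_commute _ _) (natCast_mem f.range (c g).val) (by rwa [hC]) j
    rw [hCj] at hmem
    show ρ (g ^ j) + c (g ^ j) • ρ (g ^ j)⁻¹ ∈ f.range
    rw [map_pow, ← inv_pow, map_pow,
      show c (g ^ j) = c g ^ j by simp only [c, map_pow]]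
    exact hmem
  · intro q hq hqS A hA g hg
    have hql : q ≠ l := fun h => hqS (h ▸ dvd_mul_left _ _)
    have hquad := torsRho_quadratic p (l ^ n) g ⟨q, hq⟩ q fun x hx =>
      (hred q hq hqS A hA).2 g hg x ⟨n, hx⟩
    refine ⟨heckeOp p ⟨q, hq⟩, ?_⟩
    refine Eq.trans (congrArg (fun M : Matrix (Fin (homRank p)) (Fin (homRank p)) ℤ =>
      M.map (Int.cast : ℤ → ZMod (l ^ n))) (latticeMat_heckeOp p ⟨q, hq⟩)) ?_
    show (heckeMat p ⟨q, hq⟩).map (Int.cast : ℤ → ZMod (l ^ n)) = _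
    have hcq : c g = (q : ZMod (l ^ n)) := by
      show PadicInt.toZModPow n (cycl l g) = _
      rw [cycl_frobenius l hq hql hA hg, map_natCast]
    set T := (heckeMat p ⟨q, hq⟩).map (Int.cast : ℤ → ZMod (l ^ n))
    have h1 : ρ g - T + (q : Matrix (Fin (homRank p)) (Fin (homRank p)) (ZMod (l ^ n))) * ρ g⁻¹
        = 0 := by
      calc _ = (ρ g * ρ g - T * ρ g
            + (q : Matrix (Fin (homRank p)) (Fin (homRank p)) (ZMod (l ^ n)))) * ρ g⁻¹ := by
            rw [add_mul, sub_mul, mul_assoc, mul_assoc, (hinv g).1, mul_one, mul_one]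
        _ = 0 := by rw [hquad, zero_mul]
    rw [hcq, Nat.cast_smul_eq_nsmul, nsmul_eq_mul]
    linear_combination (norm := abel) -h1

/-- **The relation**: `R σ + χ(σ) R σ⁻¹` is in the span of the Hecke algebra on the Tate module. -/
theorem add_smul_inv_mem_span (hred : TorsionReduction p l)
    (R : Γℚ →* Matrix (Fin (homRank p)) (Fin (homRank p)) ℤ_[l])
    (hR : ∀ n σ, (R σ).map (PadicInt.toZModPow n) = torsRho p (l ^ n) σ) (σ : Γℚ) :
    R σ + cycl l σ • R σ⁻¹ ∈ Submodule.span ℤ_[l]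
      (Set.range fun t : heckeAlgebra p 2 ∅ => (latticeMat p t).map (Int.cast : ℤ → ℤ_[l])) := by
  refine mem_of_forall_exists_sub_eq _ _ fun n => ?_
  obtain ⟨t, ht⟩ := exists_hecke_eq_mod hred n σ
  refine ⟨_, Submodule.subset_span ⟨t, rfl⟩, ?_⟩
  have hdvd : ∀ i j, (l : ℤ_[l]) ^ n ∣
      (R σ + cycl l σ • R σ⁻¹ - (latticeMat p t).map (Int.cast : ℤ → ℤ_[l])) i j := by
    intro i j
    rw [← Ideal.mem_span_singleton, ← PadicInt.ker_toZModPow, RingHom.mem_ker]
    have h := congrFun (congrFun ht i) j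
    rw [← hR, ← hR] at h
    simp only [Matrix.add_apply, Matrix.smul_apply, Matrix.map_apply, smul_eq_mul] at h
    simp only [Matrix.sub_apply, Matrix.add_apply, Matrix.smul_apply, Matrix.map_apply, smul_eq_mul,
      map_sub, map_add, map_mul, map_intCast]
    rw [h, sub_self]
  choose y hy using hdvd
  exact ⟨Matrix.of y, Matrix.ext fun i j => by rw [hy i j]; rfl⟩

end Fermat.Agent.MazurStep.Global
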