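import Mathlib

/-!
# Devissage of a representation all of whose elements have eigenvalues among `1` and a character

If `(ρ σ - 1) (ρ σ - χ σ)` is nilpotent for every `σ`, a non-zero finite representation over
`ZMod l` has a non-zero functional which is equivariant for `1` or for `χ`.
-/

set_option autoImplicit false

noncomputable section

namespace Fermat.Agent.MazurStep.Global

variable {Γ : Type*} [Group Γ] {l : ℕ} [hl : Fact l.Prime] {V : Type*} [AddCommGroup V]
  [Module (ZMod l) V] [Finite V]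

/-- `(f - 1) (f - c)`. -/
def twoEigen (f : Module.End (ZMod l) V) (c : ZMod l) : Module.End (ZMod l) V :=
  (f - 1) * (f - algebraMap (ZMod l) _ c)

omit [Finite V] in
theorem twoEigen_apply (f : Module.End (ZMod l) V) (c : ZMod l) (v : V) :
    twoEigen f c v = f (f v) - c • f v - (f v - c • v) := by
  simp [twoEigen, Algebra.algebraMap_eq_smul_one, Module.End.mul_apply]

/-- The common fixed vectors of the kernel of `χ`. -/
theorem exists_eigenvector [Nontrivial V] (ρ : Γ →* Module.End (ZMod l) V) (χ : Γ →* (ZMod l)ˣ)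
    (h : ∀ σ, IsNilpotent (twoEigen (ρ σ) (χ σ : ZMod l))) :
    ∃ v : V, v ≠ 0 ∧ ((∀ σ, ρ σ v = v) ∨ ∀ σ, ρ σ v = (χ σ : ZMod l) • v) := by
  classical
  let P : Subgroup (Module.End (ZMod l) V)ˣ := χ.ker.map ρ.toHomUnits
  have : CharP (Module.End (ZMod l) V) l :=
    charP_of_injective_algebraMap (algebraMap (ZMod l) (Module.End (ZMod l) V)).injective l
  have hP : IsPGroup l P := by
    rintro ⟨g, σ, hσ, rfl⟩
    obtain ⟨n, hn⟩ := h σ
    have hχ : χ σ = 1 := hσ
    rw [hχ, Units.val_one, twoEigen, map_one, ← pow_two, ← pow_mul] at hn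
    refine ⟨2 * n, Subtype.ext (Units.ext ?_)⟩
    have hle : 2 * n ≤ l ^ (2 * n) := (Nat.lt_pow_self hl.out.one_lt).le
    have h0 : (ρ σ - 1) ^ (l ^ (2 * n)) = 0 := pow_eq_zero_of_le hle hn
    rw [sub_pow_char_pow_of_commute _ _ (Commute.one_right _), one_pow, sub_eq_zero] at h0
    simpa using h0
  have hdvd : l ∣ Nat.card V := by
    have := Fintype.ofFinite V
    rw [Nat.card_eq_fintype_card, Module.card_eq_pow_finrank (K := ZMod l) (V := V), ZMod.card]
    exact dvd_pow_self _ (Module.finrank_pos (R := ZMod l) (M := V)).ne'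
  obtain ⟨w, hw, hw0⟩ := hP.exists_fixed_point_of_prime_dvd_card_of_fixed_point V hdvd
    (a := 0) (fun g => map_zero g.1.1)
  have hfix : ∀ σ, χ σ = 1 → ρ σ w = w := fun σ hσ =>
    hw ⟨ρ.toHomUnits σ, Subgroup.mem_map_of_mem _ hσ⟩
  -- the fixed space of `ker χ` is stable
  let W : Set V := {v | ∀ σ, χ σ = 1 → ρ σ v = v}
  have hstab : ∀ (τ : Γ) v, v ∈ W → ρ τ v ∈ W := by
    intro τ v hv σ hσ
    have hk : χ (τ⁻¹ * σ * τ) = 1 := by rw [map_mul, map_mul, hσ, mul_one, ← map_mul]; simp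
    calc ρ σ (ρ τ v) = ρ (σ * τ) v := by rw [map_mul]; rfl
      _ = ρ (τ * (τ⁻¹ * σ * τ)) v := by group
      _ = ρ τ v := by rw [map_mul, Module.End.mul_apply, hv _ hk]
  obtain ⟨⟨c, σ₀, rfl⟩, hgen⟩ := IsCyclic.exists_generator (α := χ.range)
  set T := twoEigen (ρ σ₀) (χ σ₀ : ZMod l) with hT
  have hW : ∀ v, v ∈ W → T v ∈ W := by
    intro v hv σ hσ
    simp only [hT, twoEigen_apply, map_sub, map_smul]
    rw [hstab σ₀ _ (hstab σ₀ v hv) σ hσ, hstab σ₀ v hv σ hσ, hv σ hσ]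
  obtain ⟨n, hn⟩ := h σ₀
  have hex : ∃ m, (T ^ m) w = 0 := ⟨n, by rw [hn]; rfl⟩
  have hm0 : Nat.find hex ≠ 0 := fun e => by
    have := Nat.find_spec hex
    rw [e, pow_zero] at this
    exact hw0 this.symm
  obtain ⟨m, hm⟩ := Nat.exists_eq_succ_of_ne_zero hm0
  set v := (T ^ m) w with hv
  have hv0 : v ≠ 0 := Nat.find_min hex (by omega)
  have hTv : T v = 0 := by
    have := Nat.find_spec hex
    rw [hm, Nat.succ_eq_add_one, pow_succ', Module.End.mul_apply] at this
    exact this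
  have hvW : v ∈ W := by
    have : ∀ i, (T ^ i) w ∈ W := fun i => by
      induction i with
      | zero => rw [pow_zero]; exact hfix
      | succ i ih => rw [pow_succ', Module.End.mul_apply]; exact hW _ ih
    exact this m
  -- an eigenvector of `σ₀` in the fixed space is an eigenvector of everything
  have main : ∀ u ∈ W, ∀ ψ : Γ →* (ZMod l)ˣ, (∀ σ, χ σ = 1 → ψ σ = 1) →
      ρ σ₀ u = (ψ σ₀ : ZMod l) • u → ∀ σ, ρ σ u = (ψ σ : ZMod l) • u := by
    intro u hu ψ hψ he σ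
    obtain ⟨j, hj⟩ := mem_powers_iff_mem_zpowers.2 (hgen ⟨χ σ, σ, rfl⟩)
    have hj' : χ σ₀ ^ j = χ σ := congrArg Subtype.val hj
    have hk : χ ((σ₀ ^ j)⁻¹ * σ) = 1 := by rw [map_mul, map_inv, map_pow, hj', inv_mul_cancel]
    have hpow : ∀ i : ℕ, ρ (σ₀ ^ i) u = (ψ (σ₀ ^ i) : ZMod l) • u := by
      intro i
      induction i with
      | zero => simp
      | succ i ih =>
        rw [pow_succ, map_mul, Module.End.mul_apply, he, map_smul, ih, smul_smul, map_mul,
          Units.val_mul, mul_comm]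
    have hσ : σ = σ₀ ^ j * ((σ₀ ^ j)⁻¹ * σ) := by group
    rw [hσ, map_mul, Module.End.mul_apply, hu _ hk, hpow, map_mul, hψ _ hk, mul_one]
  set u := ρ σ₀ v - (χ σ₀ : ZMod l) • v with hu
  by_cases hu0 : u = 0
  · exact ⟨v, hv0, Or.inr (main v hvW χ (fun _ h => h) (sub_eq_zero.1 hu0))⟩
  · refine ⟨u, hu0, Or.inl fun σ => ?_⟩
    have huW : u ∈ W := fun τ hτ => by
      rw [hu, map_sub, map_smul, hstab σ₀ v hvW τ hτ, hvW τ hτ]
    have h1 : ρ σ₀ u = u := by
      rw [← sub_eq_zero, ← hTv, hT, twoEigen_apply, hu, map_sub, map_smul]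
    simpa using main u huW 1 (fun _ _ => rfl) (by simpa using h1) σ

/-- A non-zero functional equivariant for `1` or for `χ`. -/
theorem exists_eigenFunctional [Nontrivial V] (ρ : Γ →* Module.End (ZMod l) V)
    (χ : Γ →* (ZMod l)ˣ) (h : ∀ σ, IsNilpotent (twoEigen (ρ σ) (χ σ : ZMod l))) :
    ∃ (φ : V →ₗ[ZMod l] ZMod l) (e : Γ →* (ZMod l)ˣ), φ ≠ 0 ∧ (e = 1 ∨ e = χ) ∧
      ∀ σ v, φ (ρ σ v) = (e σ : ZMod l) * φ v := by
  let ρd : Γ →* Module.End (ZMod l) (Module.Dual (ZMod l) V) :=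
    { toFun := fun σ => (ρ σ⁻¹).dualMap
      map_one' := LinearMap.ext fun φ => LinearMap.ext fun v => by simp
      map_mul' := fun σ τ => LinearMap.ext fun φ => LinearMap.ext fun v => by
        simp [map_mul, Module.End.mul_apply] }
  have hd : ∀ σ, IsNilpotent (twoEigen (ρd σ) ((χ⁻¹ : Γ →* (ZMod l)ˣ) σ : ZMod l)) := by
    intro σ
    obtain ⟨n, hn⟩ := h σ⁻¹
    refine ⟨n, ?_⟩
    have hc : (((χ⁻¹ : Γ →* (ZMod l)ˣ) σ : (ZMod l)ˣ) : ZMod l) = (χ σ⁻¹ : ZMod l) := by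
      rw [map_inv]; rfl
    rw [hc]
    have key : ∀ i : ℕ, ∀ φ v, ((twoEigen (ρd σ) (χ σ⁻¹ : ZMod l)) ^ i) φ v =
        φ (((twoEigen (ρ σ⁻¹) (χ σ⁻¹ : ZMod l)) ^ i) v) := by
      intro i
      induction i with
      | zero => intro φ v; rfl
      | succ i ih =>
        intro φ v
        rw [pow_succ, Module.End.mul_apply, ih, pow_succ', Module.End.mul_apply]
        simp only [twoEigen_apply, ρd, MonoidHom.coe_mk, OneHom.coe_mk,
          LinearMap.sub_apply, LinearMap.smul_apply, LinearMap.dualMap_apply,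
          map_sub, map_smul]
    ext φ v
    rw [key, hn]
    simp
  have : Finite (Module.Dual (ZMod l) V) := Finite.of_injective (fun φ v => φ v)
    fun _ _ h => LinearMap.ext (congrFun h)
  obtain ⟨φ, hφ0, hφ⟩ := exists_eigenvector ρd χ⁻¹ hd
  rcases hφ with hφ | hφ
  · refine ⟨φ, 1, hφ0, Or.inl rfl, fun σ v => ?_⟩
    have := LinearMap.congr_fun (hφ σ⁻¹) v
    simpa [ρd] using this
  · refine ⟨φ, χ, hφ0, Or.inr rfl, fun σ v => ?_⟩
    have := LinearMap.congr_fun (hφ σ⁻¹) v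
    simpa [ρd] using this

end Fermat.Agent.MazurStep.Global
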