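import Fermat.Agent.MazurStep.Global.Defs
import Fermat.Agent.MazurStep.Global.Devissage
import Fermat.Agent.MazurStep.Global.Kummer
import Fermat.Agent.Density.Places

/-!
# The bound on the global Selmer group of the Eisenstein piece

The proof is a devissage: the Eisenstein piece has a stable filtration whose graded pieces are
acted on by `1` or by the cyclotomic character. The symbol of a Selmer cocycle in a graded piece
is a cocycle unramified outside `l`, hence zero or one of `l` unit Kummer cocycles, and the latter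
only happens when the graded piece meets the formal part.
-/

set_option autoImplicit false

noncomputable section

open ModularCurve IntermediateField Polynomial
open scoped Pointwise

namespace Fermat.Agent.MazurStep.Global

local notation "ℚbar" => AlgebraicClosure ℚ
local notation "Γℚ" => AlgebraicClosure ℚ ≃ₐ[ℚ] AlgebraicClosure ℚ

variable {p : ℕ} [NeZero p] {l : ℕ} [hl : Fact l.Prime]

omit hl [NeZero p] in
theorem selmer_mono {H H' : AddSubgroup (JZero p)} (h : H' ≤ H) {Al Ap : ValuationSubring ℚbar}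
    {z : Γℚ → JZero p} (hz : z ∈ selmer H' l Al Ap) : z ∈ selmer H l Al Ap :=
  { (mem_selmer.1 hz) with mem := fun σ => h ((mem_selmer.1 hz).mem σ) }

omit hl in
theorem isNilpotent_twoEigen_pow {k : ℕ} [Fact k.Prime] {V : Type*} [AddCommGroup V]
    [Module (ZMod k) V] {f : Module.End (ZMod k) V} {c : ZMod k} (h : IsNilpotent (twoEigen f c))
    (j : ℕ) : IsNilpotent (twoEigen (f ^ j) (c ^ j)) := by
  let B : (ZMod k)[X] := (X - 1) * (X - C c)
  have h1 : (X - 1 : (ZMod k)[X]) ∣ X ^ j - 1 := by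
    simpa using sub_dvd_pow_sub_pow (X : (ZMod k)[X]) 1 j
  have h2 : (X - C c : (ZMod k)[X]) ∣ X ^ j - C c ^ j := sub_dvd_pow_sub_pow _ _ j
  obtain ⟨Q, hQ⟩ := mul_dvd_mul h1 h2
  have hB : aeval f B = twoEigen f c := by
    simp [B, twoEigen, Algebra.algebraMap_eq_smul_one]
  have hj : aeval f ((X ^ j - 1) * (X ^ j - C c ^ j)) = twoEigen (f ^ j) (c ^ j) := by
    simp [twoEigen, map_pow]
  rw [← hj, hQ, map_mul]
  exact (((Commute.all B Q).map (aeval f))).isNilpotent_mul_right (by rw [hB]; exact h)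

section Abstract

variable {M : Type*} [AddCommGroup M] [DistribMulAction Γℚ M] (G : AddSubgroup M)

/-- The action on a stable subgroup as endomorphisms over `ZMod l`. -/
def actEnd [Module (ZMod l) G] (hst : ∀ σ : Γℚ, ∀ x ∈ G, σ • x ∈ G) :
    Γℚ →* Module.End (ZMod l) G where
  toFun σ := (AddMonoidHom.mk' (fun x : G => (⟨σ • (x : M), hst σ x x.2⟩ : G))
    fun x y => Subtype.ext (smul_add σ (x : M) (y : M))).toZModLinearMap l
  map_one' := LinearMap.ext fun x => Subtype.ext (one_smul Γℚ (x : M))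
  map_mul' σ τ := LinearMap.ext fun x => Subtype.ext (mul_smul σ τ (x : M))

theorem actEnd_apply [Module (ZMod l) G] (hst : ∀ σ : Γℚ, ∀ x ∈ G, σ • x ∈ G) (σ : Γℚ) (x : G) :
    ((actEnd (l := l) G hst σ x : G) : M) = σ • (x : M) := rfl

/-- Every element has eigenvalues among `1` and `χ`. -/
theorem isNilpotent_twoEigen_actEnd [Module (ZMod l) G] (hst : ∀ σ : Γℚ, ∀ x ∈ G, σ • x ∈ G)
    {ζ : ℚbar} (hζ : IsPrimitiveRoot ζ l) (L : IntermediateField ℚ ℚbar) [FiniteDimensional ℚ L]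
    (hLG : ∀ σ : Γℚ, (∀ x ∈ L, σ x = x) → ∀ x ∈ G, σ • x = x) {r : ℕ}
    (heis : ∀ q : ℕ, q.Prime → q ≠ l → q ≠ r → ∀ A : ValuationSubring ℚbar, A.LiesOverPrime q →
      ∀ σ : Γℚ, A.IsFrobeniusAt σ q → ∃ n : ℕ, ∀ x ∈ G,
        (fun y : M => σ • σ • y - (1 + q) • (σ • y) + q • y)^[n] x = 0) (σ : Γℚ) :
    IsNilpotent (twoEigen (actEnd (l := l) G hst σ)
      ((haveI : NeZero l := ⟨hl.out.ne_zero⟩; hζ.autToPow ℚ σ : (ZMod l)ˣ) : ZMod l)) := by
  set χ : Γℚ →* (ZMod l)ˣ := hζ.autToPow ℚ with hχ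
  set ρ := actEnd (l := l) G hst with hρdef
  have hρ : ∀ (σ : Γℚ) (x : G), ((ρ σ x : G) : M) = σ • (x : M) := actEnd_apply G hst
  have : FiniteDimensional ℚ ℚ⟮ζ⟯ :=
    adjoin.finiteDimensional (Algebra.IsIntegral.isIntegral (R := ℚ) ζ)
  refine Density.forall_of_forall_frobenius (L ⊔ ℚ⟮ζ⟯)
    (fun σ => IsNilpotent (twoEigen (ρ σ) (χ σ : ZMod l))) ?_ ?_ ?_ {l, r} (Set.toFinite _) ?_ σ
  · intro σ σ' heq h
    have h1 : ρ σ = ρ σ' := by
      refine LinearMap.ext fun x => Subtype.ext ?_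
      rw [hρ, hρ]
      have := hLG (σ'⁻¹ * σ) (fun y hy => by
        rw [AlgEquiv.mul_apply, heq y ((le_sup_left : L ≤ _) hy)]
        exact σ'.symm_apply_apply y) x x.2
      rw [mul_smul, inv_smul_eq_iff] at this
      exact this
    have h2 : χ σ = χ σ' := by
      refine Units.ext (ZMod.val_injective l
        (hζ.pow_inj (ZMod.val_lt _) (ZMod.val_lt _) ?_))
      rw [hχ, hζ.autToPow_spec ℚ, hζ.autToPow_spec ℚ]
      exact heq ζ ((le_sup_right : ℚ⟮ζ⟯ ≤ _) (mem_adjoin_simple_self ℚ ζ))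
    show IsNilpotent (twoEigen (ρ σ) (χ σ : ZMod l))
    rw [h1, h2]; exact h
  · rintro g σ ⟨n, hn⟩
    refine ⟨n, ?_⟩
    set u := ρ.toHomUnits g
    have e1 : χ (g * σ * g⁻¹) = χ σ := by
      rw [map_mul, map_mul, mul_comm (χ g), map_inv, mul_inv_cancel_right]
    have e2 : twoEigen (ρ (g * σ * g⁻¹)) (χ σ : ZMod l) =
        (u : Module.End (ZMod l) G) * twoEigen (ρ σ) (χ σ : ZMod l) * (u⁻¹ : _ˣ) := by
      have huv : (u : Module.End (ZMod l) G) = ρ g := rfl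
      have hui : ((u⁻¹ : _ˣ) : Module.End (ZMod l) G) = ρ g⁻¹ := by
        rw [← map_inv]; rfl
      refine LinearMap.ext fun x => ?_
      have hgg : ∀ y, ρ g⁻¹ (ρ g y) = y := fun y => by
        rw [← Module.End.mul_apply, ← map_mul, inv_mul_cancel, map_one]; rfl
      have hgg' : ∀ y, ρ g (ρ g⁻¹ y) = y := fun y => by
        rw [← Module.End.mul_apply, ← map_mul, mul_inv_cancel, map_one]; rfl
      simp only [huv, hui, Module.End.mul_apply, twoEigen_apply, map_mul, map_sub, map_smul, hgg,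
        hgg']
    show (twoEigen _ (χ (g * σ * g⁻¹) : ZMod l)) ^ n = 0
    rw [e1, e2, Units.conj_pow, hn, mul_zero, zero_mul]
  · intro σ j h
    show IsNilpotent (twoEigen (ρ (σ ^ j)) (χ (σ ^ j) : ZMod l))
    rw [map_pow, map_pow, Units.val_pow_eq_pow_val]
    exact isNilpotent_twoEigen_pow h j
  · intro q hq hqS A hA φ hφ
    simp only [Set.mem_insert_iff, Set.mem_singleton_iff, not_or] at hqS
    obtain ⟨n, hn⟩ := heis q hq hqS.1 hqS.2 A hA φ hφ
    have hχφ : (χ φ : ZMod l) = (q : ZMod l) := by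
      have h1 := Gal.apply_rootOfUnity_of_isFrobeniusAt hφ hq hA
        (fun h => hqS.1 ((Nat.prime_dvd_prime_iff_eq hq hl.out).1 h)) hζ.pow_eq_one
      rw [← hζ.autToPow_spec ℚ φ, zeta_pow_eq_iff hζ, ZMod.natCast_zmod_val] at h1
      exact h1
    have hop : ∀ x : G, ((twoEigen (ρ φ) (χ φ : ZMod l) x : G) : M) =
        φ • φ • (x : M) - (1 + q) • (φ • (x : M)) + q • (x : M) := by
      intro x
      rw [hχφ, twoEigen_apply, Nat.cast_smul_eq_nsmul, Nat.cast_smul_eq_nsmul]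
      simp only [AddSubgroup.coe_sub, AddSubgroup.coe_nsmul, hρ]
      rw [add_smul, one_smul]
      abel
    have hit : ∀ (i : ℕ) (x : G), ((((twoEigen (ρ φ) (χ φ : ZMod l)) ^ i) x : G) : M) =
        (fun y : M => φ • φ • y - (1 + q) • (φ • y) + q • y)^[i] x := by
      intro i
      induction i with
      | zero => intro x; rfl
      | succ i ih =>
        intro x
        rw [pow_succ, Module.End.mul_apply, ih, Function.iterate_succ_apply, hop]
    exact ⟨n, LinearMap.ext fun x => Subtype.ext ((hit n x).trans (hn x x.2))⟩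

end Abstract

/-- One step of the filtration. -/
theorem exists_step {Γ : Type*} [Group Γ] {V : Type*} [AddCommGroup V] [Module (ZMod l) V]
    [Finite V] (ρ : Γ →* Module.End (ZMod l) V) (χ : Γ →* (ZMod l)ˣ)
    (hnil : ∀ σ, IsNilpotent (twoEigen (ρ σ) (χ σ : ZMod l))) (W : Submodule (ZMod l) V)
    (hW : W ≠ ⊥) (hstab : ∀ σ, ∀ x ∈ W, ρ σ x ∈ W) :
    ∃ (φ : V →ₗ[ZMod l] ZMod l) (e : Γ →* (ZMod l)ˣ), (e = 1 ∨ e = χ) ∧
      W ⊓ LinearMap.ker φ < W ∧
      (∀ σ, ∀ x ∈ W ⊓ LinearMap.ker φ, ρ σ x ∈ W ⊓ LinearMap.ker φ) ∧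
      ∀ σ, ∀ x ∈ W, φ (ρ σ x) = (e σ : ZMod l) * φ x := by
  have : Nontrivial W := Submodule.nontrivial_iff_ne_bot.2 hW
  let ρW : Γ →* Module.End (ZMod l) W :=
    { toFun := fun σ => (ρ σ).restrict (hstab σ)
      map_one' := LinearMap.ext fun x => Subtype.ext (by simp [LinearMap.restrict_apply])
      map_mul' := fun σ τ => LinearMap.ext fun x => Subtype.ext (by
        simp [LinearMap.restrict_apply, map_mul]) }
  have hnilW : ∀ σ, IsNilpotent (twoEigen (ρW σ) (χ σ : ZMod l)) := fun σ => by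
    obtain ⟨m, hm⟩ := hnil σ
    have hit : ∀ (i : ℕ) (x : W), ((((twoEigen (ρW σ) (χ σ : ZMod l)) ^ i) x : W) : V) =
        ((twoEigen (ρ σ) (χ σ : ZMod l)) ^ i) (x : V) := by
      intro i
      induction i with
      | zero => intro x; rfl
      | succ i ih =>
        intro x
        rw [pow_succ, Module.End.mul_apply, ih, pow_succ, Module.End.mul_apply]
        congr 1
    exact ⟨m, LinearMap.ext fun x => Subtype.ext (by rw [hit, hm]; rfl)⟩
  obtain ⟨φ, e, hφ0, he, hφ⟩ := exists_eigenFunctional ρW χ hnilW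
  obtain ⟨φ', hφ'⟩ := LinearMap.exists_extend φ
  have hφW : ∀ x : W, φ' (x : V) = φ x := fun x => LinearMap.congr_fun hφ' x
  have hφeq : ∀ σ, ∀ x ∈ W, φ' (ρ σ x) = (e σ : ZMod l) * φ' x := fun σ x hx => by
    have h1 := hφ σ ⟨x, hx⟩
    rw [← hφW, ← hφW] at h1
    exact h1
  refine ⟨φ', e, he, lt_of_le_of_ne inf_le_left fun h => hφ0 (LinearMap.ext fun x => ?_), ?_, hφeq⟩
  · have : (x : V) ∈ W ⊓ LinearMap.ker φ' := h.symm ▸ x.2
    rw [← hφW]
    exact LinearMap.mem_ker.1 this.2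
  · intro σ x hx
    refine ⟨hstab σ x hx.1, LinearMap.mem_ker.2 ?_⟩
    rw [hφeq σ x hx.1, LinearMap.mem_ker.1 hx.2, mul_zero]

variable {G H H' : AddSubgroup (JZero p)} {g : ℕ} {Al Ap : ValuationSubring ℚbar}
  {f : JZero p → ZMod l}

omit [NeZero p] in
/-- The symbol of a Selmer cocycle. -/
theorem symbol_props {ζ : ℚbar} (hζ : IsPrimitiveRoot ζ l) {e : Γℚ →* (ZMod l)ˣ}
    (he : e = 1 ∨ e = (haveI : NeZero l := ⟨hl.out.ne_zero⟩; hζ.autToPow ℚ))
    (hAp : Ap.LiesOverPrime p) (hHst : ∀ σ : Γℚ, ∀ x ∈ H, σ • x ∈ H)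
    (hadd : ∀ a ∈ H, ∀ b ∈ H, f (a + b) = f a + f b)
    (heq : ∀ σ : Γℚ, ∀ x ∈ H, f (σ • x) = (e σ : ZMod l) * f x) {z : Γℚ → JZero p}
    (hz : IsSelmer H l Al Ap z) :
    IsTwistedCocycle e (fun σ => f (z σ)) ∧ HasFiniteLevel (fun σ => f (z σ)) ∧
      ∀ q : ℕ, q.Prime → q ≠ l → ∀ A : ValuationSubring ℚbar, A.LiesOverPrime q →
        ∀ σ ∈ A.inertiaSubgroupIn ℚ, f (z σ) = 0 := by
  have hf0 : f 0 = 0 := by
    have h := hadd 0 H.zero_mem 0 H.zero_mem
    rw [add_zero] at h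
    exact left_eq_add.1 h
  have hc : IsTwistedCocycle e (fun σ => f (z σ)) := by
    intro σ τ
    show f (z (σ * τ)) = _
    rw [hz.cocycle, hadd _ (hz.mem σ) _ (hHst σ _ (hz.mem τ)), heq σ _ (hz.mem τ)]
  refine ⟨hc, ?_, fun q hq hql A hA σ hσ => ?_⟩
  · obtain ⟨L, hL, hzL⟩ := hz.finiteLevel
    exact ⟨L, hL, fun σ τ h => congrArg f (hzL σ τ h)⟩
  · by_cases hqp : q = p
    · subst hqp
      refine (vanish_of_conj hc hq hAp hA (fun τ hτ => ?_) (fun τ hτ => ?_) σ hσ).1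
      · rcases he with rfl | rfl
        · rfl
        · exact autToPow_eq_one_of_inertia hζ hq hql hAp hτ
      · show f (z τ) = 0
        rw [hz.atP τ hτ, hf0]
    · rw [hz.unramified q hq hql hqp A hA σ hσ, hf0]

omit [NeZero p] in
/-- No component along `± l`. -/
theorem symbol_no_l {ζ : ℚbar} (hζ : IsPrimitiveRoot ζ l) (F : FormalData l Al G g) (hHG : H ≤ G)
    (haddG : ∀ a ∈ G, ∀ b ∈ G, f (a + b) = f a + f b) {z : Γℚ → JZero p}
    (hz : IsSelmer H l Al Ap z) (lam : ℚbar) (hlam : lam ^ l = l ∨ lam ^ l = -(l : ℚbar))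
    (k : ZMod l) (hk : ∀ σ ∈ Al.inertiaSubgroupIn ℚ, σ ζ = ζ → ∀ j : ℕ, σ lam = ζ ^ j * lam →
      f (z σ) = k * j) : k = 0 := by
  obtain ⟨y, hy⟩ := hz.atL
  refine F.kummer y (fun σ hσ => ?_) f (fun a ha b hb => haddG a ha.1 b hb.1) ζ hζ lam hlam k
    fun σ hσ hσζ j hj => ?_
  · rw [← hy σ hσ]; exact hHG (hz.mem σ)
  · rw [← hy σ hσ]; exact hk σ hσ hσζ j hj

omit [NeZero p] in
/-- If the graded piece meets the formal part, its character is cyclotomic. -/
theorem char_eq_of_meets {ζ : ℚbar} (hζ : IsPrimitiveRoot ζ l) {e : Γℚ →* (ZMod l)ˣ}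
    (he : e = 1 ∨ e = (haveI : NeZero l := ⟨hl.out.ne_zero⟩; hζ.autToPow ℚ))
    (hAl : Al.LiesOverPrime l) (F : FormalData l Al G g) (hHG : H ≤ G)
    (hsmul : ∀ (n : ℕ), ∀ a ∈ H, f (n • a) = (n : ZMod l) * f a)
    (heq : ∀ σ : Γℚ, ∀ x ∈ H, f (σ • x) = (e σ : ZMod l) * f x)
    {x : JZero p} (hx : x ∈ H) (hxK : x ∈ F.K) (hfx : f x ≠ 0) :
    e = (haveI : NeZero l := ⟨hl.out.ne_zero⟩; hζ.autToPow ℚ) := by
  rcases he with rfl | h
  swap
  · exact h
  set χ : Γℚ →* (ZMod l)ˣ := hζ.autToPow ℚ with hχ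
  have hone : ∀ σ ∈ Al.inertiaSubgroupIn ℚ, χ σ = 1 := by
    intro σ hσ
    have h1 := F.inertia_smul σ hσ x (hHG hx) hxK (χ σ : ZMod l).val fun ξ hξ => by
      obtain ⟨i, -, rfl⟩ := hζ.eq_pow_of_pow_eq_one hξ
      rw [map_pow, ← hζ.autToPow_spec ℚ σ, ← pow_mul, ← pow_mul, mul_comm]
    have h2 := heq σ x hx
    rw [h1, hsmul _ _ hx, ZMod.natCast_zmod_val, MonoidHom.one_apply, Units.val_one] at h2
    exact Units.ext (mul_right_cancel₀ hfx h2)
  have hc : IsTwistedCocycle χ (fun σ => (χ σ : ZMod l) - 1) := fun σ τ => by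
    show ((χ (σ * τ) : (ZMod l)ˣ) : ZMod l) - 1 = _
    rw [map_mul, Units.val_mul]; ring
  have hlev : HasFiniteLevel (fun σ => (χ σ : ZMod l) - 1) := by
    refine ⟨ℚ⟮ζ⟯, adjoin.finiteDimensional (Algebra.IsIntegral.isIntegral (R := ℚ) ζ),
      fun σ τ h => ?_⟩
    have : χ σ = χ τ := Units.ext (ZMod.val_injective l
      (hζ.pow_inj (ZMod.val_lt _) (ZMod.val_lt _) (by
        rw [hχ, hζ.autToPow_spec ℚ, hζ.autToPow_spec ℚ]
        exact h ζ (mem_adjoin_simple_self ℚ ζ))))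
    show (χ σ : ZMod l) - 1 = _
    rw [this]
  have hall := eq_zero_of_inertia hc hlev fun q hq A hA σ hσ => by
    show (χ σ : ZMod l) - 1 = 0
    by_cases hql : q = l
    · subst hql
      rw [(vanish_of_conj hc hq hAl hA hone (fun τ hτ => by
        show (χ τ : ZMod q) - 1 = 0
        rw [hone τ hτ, Units.val_one, sub_self]) σ hσ).2, Units.val_one, sub_self]
    · rw [hχ, autToPow_eq_one_of_inertia hζ hq hql hA hσ, Units.val_one, sub_self]
  exact MonoidHom.ext fun σ => (Units.ext (sub_eq_zero.1 (hall σ))).symm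

omit [NeZero p] in
/-- The Selmer cocycles with vanishing symbol. -/
theorem finite_card_ker (Φ : selmer H l Al Ap →+ (Γℚ → ZMod l))
    (hΦ : ∀ z σ, Φ z σ = f ((z : Γℚ → JZero p) σ))
    (hH' : ∀ x, x ∈ H' ↔ x ∈ H ∧ f x = 0) (hfin : Finite (selmer H' l Al Ap)) :
    Finite Φ.ker ∧ Nat.card Φ.ker = Nat.card (selmer H' l Al Ap) := by
  let eker : Φ.ker ≃ selmer H' l Al Ap :=
    { toFun := fun z => ⟨(z : selmer H l Al Ap), { (mem_selmer.1 z.1.2) with
        mem := fun σ => (hH' _).2 ⟨(mem_selmer.1 z.1.2).mem σ,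
          (hΦ z.1 σ).symm.trans (congrFun z.2 σ)⟩ }⟩
      invFun := fun z => ⟨⟨z, selmer_mono (fun x hx => ((hH' x).1 hx).1) z.2⟩, funext fun σ =>
        (hΦ _ σ).trans ((hH' _).1 ((mem_selmer.1 z.2).mem σ)).2⟩
      left_inv := fun z => rfl
      right_inv := fun z => rfl }
  exact ⟨Finite.of_equiv _ eker.symm, Nat.card_congr eker⟩

omit [NeZero p] in
/-- The formal part grows by the factor `l` when the graded piece meets it. -/
theorem mul_card_le (K : AddSubgroup (JZero p))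
    (hadd : ∀ a ∈ H, ∀ b ∈ H, f (a + b) = f a + f b)
    (hH' : ∀ x, x ∈ H' ↔ x ∈ H ∧ f x = 0) {x : JZero p} (hx : x ∈ H ⊓ K) (hfx : f x ≠ 0) :
    l * Nat.card ↥(H' ⊓ K) ≤ Nat.card ↥(H ⊓ K) := by
  let ψ : ↥(H ⊓ K) →+ ZMod l := AddMonoidHom.mk' (fun a => f a)
    fun a b => hadd _ a.2.1 _ b.2.1
  have hψker : Nat.card ψ.ker = Nat.card ↥(H' ⊓ K) := Nat.card_congr
    { toFun := fun a => ⟨(a.1 : JZero p), (hH' _).2 ⟨a.1.2.1, a.2⟩, a.1.2.2⟩
      invFun := fun b => ⟨⟨b, ((hH' _).1 b.2.1).1, b.2.2⟩, ((hH' _).1 b.2.1).2⟩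
      left_inv := fun a => rfl
      right_inv := fun b => rfl }
  have h1 : ψ.range = ⊤ := by
    have : Fact (Nat.card (ZMod l)).Prime := ⟨by rw [Nat.card_zmod]; exact hl.out⟩
    refine ψ.range.eq_bot_or_eq_top_of_prime_card.resolve_left fun h => hfx ?_
    exact AddSubgroup.mem_bot.1 (h ▸ ⟨⟨x, hx⟩, rfl⟩ : ψ ⟨x, hx⟩ ∈ (⊥ : AddSubgroup (ZMod l)))
  have h2 := AddSubgroup.card_eq_card_quotient_mul_card_addSubgroup ψ.ker
  rw [Nat.card_congr (QuotientAddGroup.quotientKerEquivRange ψ).toEquiv, h1, AddSubgroup.card_top,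
    Nat.card_zmod, hψker] at h2
  exact h2.ge

omit [NeZero p] in
/-- The inductive step of the devissage. -/
theorem card_le_step (hζ' : ∃ ζ : ℚbar, IsPrimitiveRoot ζ l) (hAl : Al.LiesOverPrime l)
    (hAp : Ap.LiesOverPrime p) (F : FormalData l Al G g) (hHG : H ≤ G)
    (hfinK : Finite ↥(H ⊓ F.K)) (hHst : ∀ σ : Γℚ, ∀ x ∈ H, σ • x ∈ H)
    (haddG : ∀ a ∈ G, ∀ b ∈ G, f (a + b) = f a + f b) {e : Γℚ →* (ZMod l)ˣ}
    (he : ∀ ζ (hζ : IsPrimitiveRoot ζ l),
      e = 1 ∨ e = (haveI : NeZero l := ⟨hl.out.ne_zero⟩; (hζ.autToPow ℚ : Γℚ →* (ZMod l)ˣ)))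
    (heq : ∀ σ : Γℚ, ∀ x ∈ H, f (σ • x) = (e σ : ZMod l) * f x)
    (hH' : ∀ x, x ∈ H' ↔ x ∈ H ∧ f x = 0) (hfin' : Finite (selmer H' l Al Ap))
    (hle' : Nat.card (selmer H' l Al Ap) ≤ Nat.card ↥(H' ⊓ F.K)) :
    Finite (selmer H l Al Ap) ∧ Nat.card (selmer H l Al Ap) ≤ Nat.card ↥(H ⊓ F.K) := by
  classical
  obtain ⟨ζ, hζ⟩ := hζ'
  have hadd : ∀ a ∈ H, ∀ b ∈ H, f (a + b) = f a + f b := fun a ha b hb =>
    haddG a (hHG ha) b (hHG hb)
  have hnsmul : ∀ (n : ℕ), ∀ a ∈ H, f (n • a) = (n : ZMod l) * f a := by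
    intro n a ha
    induction n with
    | zero =>
      have h := hadd 0 H.zero_mem 0 H.zero_mem
      rw [add_zero] at h
      rw [zero_nsmul, left_eq_add.1 h, Nat.cast_zero, zero_mul]
    | succ n ih =>
      rw [succ_nsmul, hadd _ (H.nsmul_mem ha n) _ ha, ih, Nat.cast_succ, add_mul, one_mul]
  let Φ : selmer H l Al Ap →+ (Γℚ → ZMod l) :=
    AddMonoidHom.mk' (fun z σ => f ((z : Γℚ → JZero p) σ)) fun z z' => funext fun σ =>
      hadd _ ((mem_selmer.1 z.2).mem σ) _ ((mem_selmer.1 z'.2).mem σ)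
  obtain ⟨hkfin, hker⟩ := finite_card_ker Φ (fun _ _ => rfl) hH' hfin'
  by_cases himg : ∃ x ∈ H ⊓ F.K, f x ≠ 0
  · obtain ⟨x, hx, hfx⟩ := himg
    have heχ := char_eq_of_meets hζ (he ζ hζ) hAl F hHG hnsmul heq hx.1 hx.2 hfx
    subst heχ
    obtain ⟨S, hScard, hS⟩ := exists_finset_unit_form hζ
    have hrange : ∀ c : Φ.range, c.1 ∈ (S : Set (Γℚ → ZMod l)) := by
      rintro ⟨_, z, rfl⟩
      obtain ⟨hc, hlev, hunr⟩ := symbol_props hζ (Or.inr rfl) hAp hHst hadd heq (mem_selmer.1 z.2)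
      obtain ⟨lam, hlam0, hpm, hσ⟩ := exists_unit_form hζ hc hlev hunr Al
        (symbol_no_l hζ F hHG haddG (mem_selmer.1 z.2))
      exact hS _ lam hlam0 hpm hσ
    have hinj : Function.Injective
        (fun c : Φ.range => (⟨c.1, hrange c⟩ : (S : Set (Γℚ → ZMod l)))) :=
      fun a b h => Subtype.ext (congrArg Subtype.val h :)
    have : Finite Φ.range := Finite.of_injective _ hinj
    have hrl : Nat.card Φ.range ≤ l := by
      refine le_trans (Nat.card_le_card_of_injective _ hinj) ?_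
      simpa using hScard
    have : Finite (selmer H l Al Ap) := Finite.of_addSubgroup_quotient Φ.ker
    refine ⟨inferInstance, ?_⟩
    rw [AddSubgroup.card_eq_card_quotient_mul_card_addSubgroup Φ.ker, hker,
      Nat.card_congr (QuotientAddGroup.quotientKerEquivRange Φ).toEquiv]
    exact le_trans (Nat.mul_le_mul hrl hle') (mul_card_le F.K hadd hH' hx hfx)
  · push Not at himg
    have hzero : ∀ z : selmer H l Al Ap, z ∈ Φ.ker := fun z => by
      obtain ⟨hc, hlev, hunr⟩ := symbol_props hζ (he ζ hζ) hAp hHst hadd heq (mem_selmer.1 z.2)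
      obtain ⟨y, hy⟩ := (mem_selmer.1 z.2).atL
      have h0 : ∀ σ ∈ Al.inertiaSubgroupIn ℚ, f ((z : Γℚ → JZero p) σ) = 0 := fun σ hσ =>
        himg _ ⟨(mem_selmer.1 z.2).mem σ, hy σ hσ ▸ F.sub_mem σ hσ y⟩
      refine funext fun σ => ?_
      rcases he ζ hζ with rfl | rfl
      · refine eq_zero_of_inertia hc hlev (fun q hq A hA τ hτ => ?_) σ
        by_cases hql : q = l
        · subst hql
          exact (vanish_of_conj hc hq hAl hA (fun _ _ => rfl) h0 τ hτ).1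
        · exact hunr q hq hql A hA τ hτ
      · obtain ⟨lam, -, hpm, hσ⟩ := exists_unit_form hζ hc hlev hunr Al
          (symbol_no_l hζ F hHG haddG (mem_selmer.1 z.2))
        exact eq_zero_of_unit_form hζ hc hlev hunr hAl h0 hpm hσ σ
    have hinj : Function.Injective (fun z => (⟨z, hzero z⟩ : Φ.ker)) :=
      fun a b h => congrArg Subtype.val h
    refine ⟨Finite.of_injective _ hinj, ?_⟩
    calc Nat.card (selmer H l Al Ap) ≤ Nat.card Φ.ker := Nat.card_le_card_of_injective _ hinj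
      _ ≤ Nat.card ↥(H' ⊓ F.K) := hker ▸ hle'
      _ ≤ Nat.card ↥(H ⊓ F.K) :=
          Nat.card_le_card_of_injective
            (AddSubgroup.inclusion (inf_le_inf_right F.K fun x hx => ((hH' x).1 hx).1))
            (AddSubgroup.inclusion_injective _)

omit [NeZero p] in
/-- The Selmer group of the Eisenstein piece is bounded by the formal part. -/
theorem selmer_card_le_aux (hAl : Al.LiesOverPrime l) (hAp : Ap.LiesOverPrime p)
    (hG : EisensteinPiece l G) (F : FormalData l Al G g) :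
    Finite (selmer G l Al Ap) ∧ Nat.card (selmer G l Al Ap) ≤ Nat.card ↥(G ⊓ F.K) := by
  classical
  have : Module (ZMod l) G := AddCommGroup.zmodModule fun x => Subtype.ext (hG.torsion x x.2)
  have : Finite G := hG.finite
  obtain ⟨ζ, hζ⟩ := HasEnoughRootsOfUnity.exists_primitiveRoot ℚbar l
  obtain ⟨L, hL, hLG⟩ := hG.finiteLevel
  have hnil := isNilpotent_twoEigen_actEnd G hG.stable hζ L hLG (r := p) hG.eisenstein
  set ρ := actEnd (l := l) G hG.stable with hρdef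
  let H : Submodule (ZMod l) G → AddSubgroup (JZero p) := fun W => W.toAddSubgroup.map G.subtype
  have hHG : ∀ W, H W ≤ G := fun W => by
    rintro _ ⟨x, -, rfl⟩; exact x.2
  suffices key : ∀ (n : ℕ) (W : Submodule (ZMod l) G), Nat.card W = n →
      (∀ σ, ∀ x ∈ W, ρ σ x ∈ W) →
      Finite (selmer (H W) l Al Ap) ∧
        Nat.card (selmer (H W) l Al Ap) ≤ Nat.card ↥(H W ⊓ F.K) by
    have htop : H (⊤ : Submodule (ZMod l) G) = G :=
      le_antisymm (hHG _) fun x hx =>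
        ⟨⟨x, hx⟩,
          (Submodule.mem_top (R := ZMod l) : (⟨x, hx⟩ : G) ∈ (⊤ : Submodule (ZMod l) G)), rfl⟩
    have := key _ (⊤ : Submodule (ZMod l) G) rfl fun _ _ _ => Submodule.mem_top
    rwa [htop] at this
  intro n
  induction n using Nat.strong_induction_on with
  | _ n ih =>
  intro W hn hstab
  have hfinK : Finite ↥(H W ⊓ F.K) :=
    Finite.of_injective (AddSubgroup.inclusion ((inf_le_left).trans (hHG W)))
      (AddSubgroup.inclusion_injective _)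
  by_cases hW : W = ⊥
  · have h0 : ∀ z ∈ selmer (H W) l Al Ap, z = 0 := fun z hz => funext fun σ => by
      obtain ⟨x, hx, he⟩ := (mem_selmer.1 hz).mem σ
      have hx0 : x = 0 := (Submodule.mem_bot (ZMod l)).1 (hW ▸ hx)
      rw [← he, hx0]; rfl
    have : Subsingleton (selmer (H W) l Al Ap) :=
      ⟨fun a b => Subtype.ext ((h0 a a.2).trans (h0 b b.2).symm)⟩
    refine ⟨inferInstance, ?_⟩
    rw [Nat.card_unique]
    exact Nat.card_pos
  obtain ⟨φ, e, he, hlt, hstab', hφeq⟩ := exists_step ρ _ hnil W hW hstab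
  obtain ⟨hfin', hle'⟩ := ih (Nat.card ↥(W ⊓ LinearMap.ker φ))
    (hn ▸ Set.ncard_lt_ncard (SetLike.coe_ssubset_coe.2 hlt) (Set.toFinite _)) _ rfl hstab'
  let f : JZero p → ZMod l := fun x => if h : x ∈ G then φ ⟨x, h⟩ else 0
  have hf : ∀ x : G, f (x : JZero p) = φ x := fun x => by
    simp only [f, dif_pos x.2, Subtype.coe_eta]
  have hfadd : ∀ a ∈ G, ∀ b ∈ G, f (a + b) = f a + f b := fun a ha b hb => by
    have h : f ((⟨a, ha⟩ + ⟨b, hb⟩ : G) : JZero p) = _ := hf _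
    rw [map_add, ← hf, ← hf] at h
    exact h
  refine card_le_step ⟨ζ, hζ⟩ hAl hAp F (hHG W) hfinK ?_ hfadd (e := e) ?_ ?_ ?_ hfin' hle'
  · rintro σ _ ⟨x, hx, rfl⟩
    exact ⟨ρ σ x, hstab σ x hx, actEnd_apply (l := l) G hG.stable σ x⟩
  · intro ξ hξ
    rcases he with rfl | rfl
    · exact Or.inl rfl
    · refine Or.inr (MonoidHom.ext fun σ => ?_)
      obtain ⟨i, -, rfl⟩ := hζ.eq_pow_of_pow_eq_one hξ.pow_eq_one
      have h1 := hξ.autToPow_spec ℚ σ
      rw [map_pow, ← hζ.autToPow_spec ℚ σ, ← pow_mul, ← pow_mul, zeta_pow_eq_iff hζ] at h1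
      push_cast at h1
      rw [ZMod.natCast_zmod_val, ZMod.natCast_zmod_val, mul_comm _ (i : ZMod l)] at h1
      refine Units.ext (mul_left_cancel₀ (fun hi => ?_) h1.symm)
      rw [ZMod.natCast_eq_zero_iff] at hi
      obtain ⟨t, rfl⟩ := hi
      have := hξ.ne_one hl.out.one_lt
      rw [pow_mul, hζ.pow_eq_one, one_pow] at this
      exact this rfl
  · rintro σ _ ⟨x, hx, rfl⟩
    show f (σ • (x : JZero p)) = _ * f (x : JZero p)
    rw [← actEnd_apply (l := l) G hG.stable σ x, hf, hf]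
    exact hφeq σ x hx
  · intro x
    constructor
    · rintro ⟨y, hy, rfl⟩
      exact ⟨⟨y, hy.1, rfl⟩, (hf y).trans (LinearMap.mem_ker.1 hy.2)⟩
    · rintro ⟨⟨y, hy, rfl⟩, h⟩
      exact ⟨y, ⟨hy, LinearMap.mem_ker.2 ((hf y).symm.trans h)⟩, rfl⟩

omit hl [NeZero p] in
/-- The Selmer group of the Eisenstein piece has at most `l ^ g` elements. -/
theorem selmer_card_le (hl : l.Prime) (hAl : Al.LiesOverPrime l)
    (hAp : Ap.LiesOverPrime p) (hG : EisensteinPiece l G) (F : FormalData l Al G g) :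
    Finite (selmer G l Al Ap) ∧ Nat.card (selmer G l Al Ap) ≤ l ^ g := by
  have := Fact.mk hl
  obtain ⟨h1, h2⟩ := selmer_card_le_aux hAl hAp hG F
  exact ⟨h1, h2.trans F.card_le⟩

end Fermat.Agent.MazurStep.Global
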