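import Fermat.Agent.MazurStep.Global.ComplexConj
import Fermat.Agent.GalRep.Eigen
import Fermat.Agent.Newform.MultOne
import Fermat.Agent.Elem.CuspWeightTwo
import Fermat.Agent.Petersson.Hecke
import Fermat.Agent.S22
import Mathlib.LinearAlgebra.Eigenspace.Pi
import Mathlib.LinearAlgebra.Semisimple

/-!
# The eigen-blocks of the Hecke action on the lattice at prime level

The full Hecke algebra of prime level acts semisimply; every joint eigenspace on the lattice has
dimension at most two and the involution is not scalar on it.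
-/

set_option autoImplicit false

noncomputable section

open CongruenceSubgroup Matrix Polynomial
open CuspForm (heckeAlgebra)

namespace Fermat.Agent.MazurStep.Global

open Fermat.Agent.GalRep Fermat.Agent.Cosets
open ModularFormClass (qCoeff)

variable (N : ℕ) [NeZero N]

/-! ### The characteristic polynomial on the lattice -/

/-- On the lattice, the characteristic polynomial is the square of that on cusp forms. -/
theorem charpoly_latticeMat (t : heckeAlgebra N 2 ∅) :
    haveI := MFCore.finiteDimensional_cuspForm_Gamma0 N 2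
    ((latticeMat N t).map (Int.cast : ℤ → ℂ)).charpoly =
      LinearMap.charpoly (t : Module.End ℂ (CuspForm (Gamma0 N) 2)) ^ 2 := by
  have := MFCore.finiteDimensional_cuspForm_Gamma0 N 2
  rw [map_latticeMat]
  change (LinearMap.toMatrix' ((periodEquiv N).conj
    (LinearMap.prodMap (t : Module.End ℂ (CuspForm (Gamma0 N) 2))
      (t : Module.End ℂ (CuspForm (Gamma0 N) 2))))).charpoly = _
  rw [← LinearMap.toMatrix_eq_toMatrix', LinearMap.charpoly_toMatrix, LinearEquiv.charpoly_conj,
    LinearMap.charpoly_prodMap, sq]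

/-! ### Multiplicity one at prime level -/

variable {N} {p : ℕ} [NeZero p]

theorem range_oldMap_eq_bot (hp : p.Prime) : LinearMap.range (Newform.oldMap p 2) = ⊥ := by
  rw [LinearMap.range_eq_bot]
  refine LinearMap.ext fun g => ?_
  have hg : g = 0 := funext fun ⟨q, hq⟩ => by
    obtain rfl : q = p := (Nat.prime_dvd_prime_iff_eq (Nat.prime_of_mem_primeFactors hq) hp).mp
      (Nat.dvd_of_mem_primeFactors hq)
    have : NeZero (q / q) := ⟨by rw [Nat.div_self hp.pos]; exact one_ne_zero⟩
    refine Elem.cuspForm_two_eq_zero_of_index_lt (q / q) ?_ _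
    rw [Nat.div_self hp.pos, Elem.index_Gamma0_one]
    norm_num
  rw [hg, map_zero, LinearMap.zero_apply]

/-- A common eigenvector of the good Hecke operators is an eigenvector of the whole algebra. -/
theorem exists_scalar_of_goodEigen (hp : p.Prime) (χ : Petersson.GoodPrime p → ℂ)
    {v : CuspForm (Gamma0 p) 2} (hv : v ∈ ⨅ i, (Petersson.goodT i).eigenspace (χ i))
    (τ : heckeAlgebra p 2 ∅) :
    ∃ c : ℂ, (τ : Module.End ℂ (CuspForm (Gamma0 p) 2)) v = c • v := by
  classical
  set E := ⨅ i, (Petersson.goodT i).eigenspace (χ i) with hE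
  let a : ℕ → ℂ := fun ℓ => if h : ℓ.Prime ∧ ¬ ℓ ∣ p then χ ⟨ℓ, h⟩ else 0
  have hone : ∀ h ∈ E, qCoeff ⇑h 1 = 0 → h = 0 := fun h hh h1 => by
    have := (Newform.qCoeff_eq_zero_of_eigen_finite h ∅ a (fun ℓ hℓ hℓN _ => by
      simp only [a, dif_pos (show ℓ.Prime ∧ ¬ ℓ ∣ p from ⟨hℓ, hℓN⟩)]
      exact Module.End.mem_eigenspace_iff.mp ((Submodule.mem_iInf _).mp hh ⟨ℓ, hℓ, hℓN⟩)) h1).2
    rwa [range_oldMap_eq_bot hp, Submodule.mem_bot] at this
  have hτ : (τ : Module.End ℂ (CuspForm (Gamma0 p) 2)) v ∈ E := by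
    rw [Submodule.mem_iInf]
    intro i
    rw [Module.End.mem_eigenspace_iff]
    have h1 := congrArg (fun x : heckeAlgebra p 2 ∅ => (x : Module.End ℂ _) v)
      (mul_comm (CuspForm.heckeAlgebra.T i.2.1 i.2.2 (Set.notMem_empty _)) τ)
    simp only [MulMemClass.coe_mul, Module.End.mul_apply, CuspForm.heckeAlgebra.coe_T] at h1
    have h2 := Module.End.mem_eigenspace_iff.mp ((Submodule.mem_iInf _).mp hv i)
    rw [Petersson.goodT] at h2 ⊢
    rw [h1, h2, map_smul]
  by_cases h1 : qCoeff ⇑v 1 = 0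
  · refine ⟨0, ?_⟩
    rw [hone v hv h1, map_zero, zero_smul]
  refine ⟨qCoeff ⇑((τ : Module.End ℂ (CuspForm (Gamma0 p) 2)) v) 1 / qCoeff ⇑v 1,
    sub_eq_zero.mp (hone _ (sub_mem hτ (E.smul_mem _ hv)) ?_)⟩
  rw [Hecke.qCoeff_sub, Hecke.qCoeff_smul, div_mul_cancel₀ _ h1, sub_self]

/-! ### Semisimplicity -/

theorem aeval_latticeMatC (hp : p.Prime) (τ : heckeAlgebra p 2 ∅) (P : ℂ[X])
    (hP : ∀ c, Module.End.HasEigenvalue (Matrix.toLin' (latticeMatC p τ)) c → P.eval c = 0) :
    aeval (Matrix.toLin' (latticeMatC p τ)) P = 0 := by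
  set f := Matrix.toLin' (latticeMatC p τ) with hf
  have kill : ∀ (w : Fin (homRank p) → ℂ) (c : ℂ), f w = c • w → aeval f P w = 0 := by
    intro w c hw
    by_cases h0 : w = 0
    · rw [h0, map_zero]
    have he : Module.End.HasEigenvector f c w := ⟨Module.End.mem_eigenspace_iff.mpr hw, h0⟩
    rw [Module.End.aeval_apply_of_hasEigenvector he,
      hP c (Module.End.hasEigenvalue_of_hasEigenvector he), zero_smul]
  refine LinearMap.ext fun w => ?_
  obtain ⟨⟨f₁, f₂⟩, rfl⟩ := (periodEquiv p).surjective w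
  have hsplit : ∀ g : CuspForm (Gamma0 p) 2,
      aeval f P (periodEquiv p (g, 0)) = 0 ∧ aeval f P (periodEquiv p (0, g)) = 0 := by
    intro g
    have hg : g ∈ ⨆ χ : Petersson.GoodPrime p → ℂ, ⨅ i, (Petersson.goodT i).eigenspace (χ i) := by
      rw [Petersson.iSup_eigenspace_goodT]; exact Submodule.mem_top
    induction hg using Submodule.iSup_induction' with
    | mem χ v hv =>
      obtain ⟨c, hc⟩ := exists_scalar_of_goodEigen hp χ hv τ
      refine ⟨kill _ c ?_, kill _ c ?_⟩ <;>
        rw [hf, Matrix.toLin'_apply, latticeMatC_mulVec, ← map_smul, Prod.smul_mk, smul_zero, hc,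
          map_zero]
    | zero =>
      rw [show ((0, 0) : CuspForm (Gamma0 p) 2 × CuspForm (Gamma0 p) 2) = 0 from rfl, map_zero,
        map_zero]
      exact ⟨rfl, rfl⟩
    | add x y _ _ hx hy =>
      have e1 : ((x + y, 0) : CuspForm (Gamma0 p) 2 × CuspForm (Gamma0 p) 2)
          = (x, 0) + (y, 0) := by simp
      have e2 : ((0, x + y) : CuspForm (Gamma0 p) 2 × CuspForm (Gamma0 p) 2)
          = (0, x) + (0, y) := by simp
      rw [e1, e2, map_add, map_add, map_add, map_add, hx.1, hx.2, hy.1, hy.2, add_zero]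
      exact ⟨rfl, rfl⟩
  have e : ((f₁, f₂) : CuspForm (Gamma0 p) 2 × CuspForm (Gamma0 p) 2) = (f₁, 0) + (0, f₂) := by
    simp
  rw [e, map_add, map_add, (hsplit f₁).1, (hsplit f₂).2, add_zero, LinearMap.zero_apply]

variable {K : Type} [Field K] [CharZero K]

/-- The Hecke operators act semisimply on the lattice over every field of characteristic zero. -/
theorem isSemisimple_latticeMat (hp : p.Prime) (τ : heckeAlgebra p 2 ∅) :
    Module.End.IsSemisimple (Matrix.toLin' ((latticeMat p τ).map (Int.cast : ℤ → K))) := by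
  classical
  set M : Matrix (Fin (homRank p)) (Fin (homRank p)) ℚ := (latticeMat p τ).map (Int.cast : ℤ → ℚ)
  set P : ℚ[X] := UniqueFactorizationMonoid.radical M.charpoly with hPdef
  have hne : M.charpoly ≠ 0 := M.charpoly_monic.ne_zero
  have hmap : ∀ (F : Type _) [Field F] [CharZero F],
      M.map (algebraMap ℚ F) = (latticeMat p τ).map (Int.cast : ℤ → F) := fun F _ _ =>
    Matrix.ext fun i j => map_intCast (algebraMap ℚ F) _
  have hev : ∀ (F : Type _) [Field F] [CharZero F],
      aeval (Matrix.toLin' ((latticeMat p τ).map (Int.cast : ℤ → F))) (P.map (algebraMap ℚ F))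
        = Matrix.toLin' ((aeval M P).map (algebraMap ℚ F)) := fun F _ _ => by
    rw [← hmap F]
    have h1 := Polynomial.aeval_algHom_apply
      (Matrix.toLinAlgEquiv' : Matrix (Fin (homRank p)) (Fin (homRank p)) F ≃ₐ[F] _).toAlgHom
      (M.map (algebraMap ℚ F)) (P.map (algebraMap ℚ F))
    have h2 := Polynomial.aeval_algHom_apply (Algebra.ofId ℚ F).mapMatrix M P
    rw [Polynomial.aeval_map_algebraMap] at h1 ⊢
    exact h1.trans (congrArg Matrix.toLin' ((Polynomial.aeval_map_algebraMap F _ P).trans h2))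
  have hC : aeval (Matrix.toLin' (latticeMatC p τ)) (P.map (algebraMap ℚ ℂ)) = 0 := by
    refine aeval_latticeMatC hp τ _ fun c hc => ?_
    have hroot := (Module.End.hasEigenvalue_iff_isRoot_charpoly _ c).mp hc
    rw [← LinearMap.charpoly_toMatrix _ (Pi.basisFun ℂ _), LinearMap.toMatrix_eq_toMatrix',
      LinearMap.toMatrix'_toLin', ← map_latticeMat, ← hmap, Matrix.charpoly_map] at hroot
    obtain ⟨n, hn⟩ := UniqueFactorizationMonoid.exists_dvd_radical_self_pow hne
    have h := eval_eq_zero_of_dvd_of_eval_eq_zero (Polynomial.map_dvd (algebraMap ℚ ℂ) hn) hroot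
    rw [Polynomial.map_pow, eval_pow] at h
    exact eq_zero_of_pow_eq_zero h
  have h0 : aeval M P = 0 := by
    have h := hev ℂ
    rw [map_latticeMat, hC, ← map_zero (Matrix.toLin' (R := ℂ))] at h
    refine Matrix.map_injective (algebraMap ℚ ℂ).injective ?_
    beta_reduce
    rw [Matrix.map_zero _ (map_zero _)]
    exact ((Matrix.toLin' (R := ℂ)).injective h).symm
  refine Module.End.isSemisimple_of_squarefree_aeval_eq_zero (p := P.map (algebraMap ℚ K)) ?_ ?_
  · exact (Polynomial.Separable.map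
      (PerfectField.separable_iff_squarefree.mpr
        UniqueFactorizationMonoid.squarefree_radical)).squarefree
  · rw [hev, h0, Matrix.map_zero _ (map_zero _), map_zero]

variable [IsAlgClosed K]

/-- The joint eigenspaces of the Hecke algebra exhaust the lattice. -/
theorem iSup_eigen_eq_top (hp : p.Prime) :
    ⨆ χ : heckeAlgebra p 2 ∅ → K,
      ⨅ τ, Module.End.eigenspace (Matrix.toLin' ((latticeMat p τ).map (Int.cast : ℤ → K)))
        (χ τ) = ⊤ := by
  rw [eq_top_iff,
    ← Module.End.iSup_iInf_maxGenEigenspace_eq_top_of_iSup_maxGenEigenspace_eq_top_of_commute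
      (fun τ : heckeAlgebra p 2 ∅ => Matrix.toLin' ((latticeMat p τ).map (Int.cast : ℤ → K)))
      (fun a b _ => ?_) fun τ => Module.End.iSup_maxGenEigenspace_eq_top _]
  · exact iSup_mono fun χ => iInf_mono fun τ =>
      ((isSemisimple_latticeMat hp τ).isFinitelySemisimple.maxGenEigenspace_eq_eigenspace _).le
  · show _ * _ = _ * _
    have h : ∀ x y : heckeAlgebra p 2 ∅,
        Matrix.toLin' ((latticeMat p x).map (Int.cast : ℤ → K)) *
          Matrix.toLin' ((latticeMat p y).map (Int.cast : ℤ → K)) =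
        Matrix.toLin' ((latticeMat p (x * y)).map (Int.cast : ℤ → K)) := fun x y => by
      rw [map_mul, Module.End.mul_eq_comp, ← Matrix.toLin'_mul]
      exact congrArg _ (map_mul (Int.castRingHom K).mapMatrix _ _).symm
    rw [h, h, mul_comm]

omit [CharZero K] [IsAlgClosed K] in
/-- A system of eigenvalues with a nonzero eigenvector is a character. -/
theorem exists_ringHom_of_eigen {χ : heckeAlgebra p 2 ∅ → K} {w : Fin (homRank p) → K} (hw0 : w ≠ 0)
    (hw : ∀ τ, (latticeMat p τ).map (Int.cast : ℤ → K) *ᵥ w = χ τ • w) :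
    ∃ κ : heckeAlgebra p 2 ∅ →+* K, ∀ τ, κ τ = χ τ := by
  have inj := smul_left_injective K hw0
  let mm : heckeAlgebra p 2 ∅ →+* Matrix (Fin (homRank p)) (Fin (homRank p)) K :=
    (Int.castRingHom K).mapMatrix.comp (latticeMat p)
  have hw' : ∀ τ, mm τ *ᵥ w = χ τ • w := hw
  refine ⟨{ toFun := χ, map_one' := inj ?_, map_mul' := fun a b => inj ?_, map_zero' := inj ?_,
            map_add' := fun a b => inj ?_ }, fun τ => rfl⟩
  · show χ 1 • w = (1 : K) • w
    rw [← hw', map_one, Matrix.one_mulVec, one_smul]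
  · show χ (a * b) • w = (χ a * χ b) • w
    rw [← hw', map_mul, ← Matrix.mulVec_mulVec, hw', Matrix.mulVec_smul, hw', smul_smul, mul_comm]
  · show χ 0 • w = (0 : K) • w
    rw [← hw', map_zero, Matrix.zero_mulVec, zero_smul]
  · show χ (a + b) • w = (χ a + χ b) • w
    rw [← hw', map_add, Matrix.add_mulVec, hw', hw', add_smul]

omit [IsAlgClosed K] in
/-- A joint eigenspace has dimension at most two, and the involution is not scalar on it. -/
theorem eigenspace_block (κ : heckeAlgebra p 2 ∅ →+* K) :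
    Module.finrank K (eigenspace (heckeMat p) fun q => κ (heckeOp p q)) ≤ 2 ∧
      ∀ s : K, ∃ v ∈ eigenspace (heckeMat p) (fun q => κ (heckeOp p q)),
        (parConjMat p).map (Int.cast : ℤ → K) *ᵥ v ≠ s • v := by
  have : Module.Finite ℤ (heckeAlgebra p 2 ∅) := Fermat.Agent.S22.result p 2 ∅
  let K₀ : IntermediateField ℚ K := IntermediateField.adjoin ℚ (Set.range κ)
  have : Algebra.IsAlgebraic ℚ K₀ := IntermediateField.isAlgebraic_adjoin fun x hx => by
    obtain ⟨y, rfl⟩ := hx
    have := (Algebra.IsIntegral.isIntegral (R := ℤ) y).map κ.toIntAlgHom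
    exact this.tower_top
  let κ₀ : heckeAlgebra p 2 ∅ →+* K₀ :=
    κ.codRestrict K₀.toSubring fun x => IntermediateField.subset_adjoin ℚ _ ⟨x, rfl⟩
  let σ : K₀ →ₐ[ℚ] ℂ := IsAlgClosed.lift
  let κC : heckeAlgebra p 2 ∅ →+* ℂ := (σ : K₀ →+* ℂ).comp κ₀
  set a₀ : Nat.Primes → K₀ := fun q => κ₀ (heckeOp p q)
  have h1 : Module.finrank K (eigenspace (heckeMat p) fun q => κ (heckeOp p q)) =
      Module.finrank K₀ (eigenspace (heckeMat p) a₀) :=
    finrank_eigenspace_map (algebraMap K₀ K) (heckeMat p) a₀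
  have h2 : Module.finrank ℂ (eigenspace (heckeMat p) fun q => κC (heckeOp p q)) =
      Module.finrank K₀ (eigenspace (heckeMat p) a₀) :=
    finrank_eigenspace_map (σ : K₀ →+* ℂ) (heckeMat p) a₀
  refine ⟨by rw [h1, ← h2]; exact heckeMat_eigen_le p κC, fun s => ?_⟩
  by_contra hcon
  push Not at hcon
  set J := parConjMat p
  set W₀ := eigenspace (heckeMat p) a₀
  have hpos : 0 < Module.finrank K₀ W₀ := by rw [← h2]; exact heckeMat_eigen_pos p κC
  let b := Module.finBasis K₀ W₀
  have hup : ∀ v : W₀, (algebraMap K₀ K) ∘ (v : Fin (homRank p) → K₀) ∈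
      eigenspace (heckeMat p) fun q => κ (heckeOp p q) := fun v => by
    rw [mem_eigenspace]
    intro q
    funext i
    have h := congrArg (algebraMap K₀ K) (congrFun ((mem_eigenspace _ _ _).mp v.2 q) i)
    rw [RingHom.map_mulVec] at h
    simpa [Matrix.map_map, Function.comp_def, a₀, κ₀] using h
  have hJ : ∀ v : W₀, ∀ i, algebraMap K₀ K ((J.map (Int.cast : ℤ → K₀) *ᵥ (v : Fin _ → K₀)) i)
      = s * algebraMap K₀ K ((v : Fin _ → K₀) i) := fun v i => by
    rw [RingHom.map_mulVec]
    simpa [Matrix.map_map, Function.comp_def] using congrFun (hcon _ (hup v)) i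
  obtain ⟨s₀, rfl⟩ : ∃ s₀ : K₀, algebraMap K₀ K s₀ = s := by
    obtain ⟨v, hv⟩ : ∃ v : W₀, v ≠ 0 := Module.finrank_pos_iff_exists_ne_zero.mp hpos
    obtain ⟨i, hi⟩ : ∃ i, (v : Fin (homRank p) → K₀) i ≠ 0 := by
      by_contra h
      push Not at h
      exact hv (Subtype.ext (funext h))
    refine ⟨(J.map (Int.cast : ℤ → K₀) *ᵥ (v : Fin _ → K₀)) i / (v : Fin _ → K₀) i, ?_⟩
    rw [map_div₀, hJ, mul_div_cancel_right₀ _ (by
      simpa using (map_ne_zero (algebraMap K₀ K)).mpr hi)]
  -- over `ℂ` the involution would be scalar on the eigenspace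
  have hσmem : ∀ v : W₀, (σ : K₀ →+* ℂ) ∘ (v : Fin (homRank p) → K₀) ∈
      eigenspace (heckeMat p) fun q => κC (heckeOp p q) := fun v => by
    rw [mem_eigenspace]
    intro q
    funext i
    have h := congrArg (σ : K₀ →+* ℂ) (congrFun ((mem_eigenspace _ _ _).mp v.2 q) i)
    rw [RingHom.map_mulVec] at h
    simpa [Matrix.map_map, Function.comp_def, a₀, κC] using h
  have hli := linearIndependent_map (σ : K₀ →+* ℂ) (b.linearIndependent.map' W₀.subtype
    (Submodule.ker_subtype _))
  have hspan : Submodule.span ℂ (Set.range fun i => (σ : K₀ →+* ℂ) ∘ (b i : Fin (homRank p) → K₀))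
      = eigenspace (heckeMat p) fun q => κC (heckeOp p q) := by
    refine Submodule.eq_of_le_of_finrank_eq
      (Submodule.span_le.mpr (by rintro _ ⟨i, rfl⟩; exact hσmem (b i))) ?_
    rw [h2]
    exact (finrank_span_eq_card hli).trans (Fintype.card_fin _)
  have hscal : ∀ w ∈ eigenspace (heckeMat p) (fun q => κC (heckeOp p q)),
      J.map (Int.cast : ℤ → ℂ) *ᵥ w = σ s₀ • w := by
    intro w hw
    rw [← hspan] at hw
    induction hw using Submodule.span_induction with
    | mem w hw =>
      obtain ⟨i, rfl⟩ := hw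
      funext j
      have h := congrArg (σ : K₀ →+* ℂ) ((algebraMap K₀ K).injective
        ((hJ (b i) j).trans (map_mul _ _ _).symm))
      rw [RingHom.map_mulVec] at h
      simpa [Matrix.map_map, Function.comp_def] using h
    | zero => simp
    | add x y _ _ hx hy => rw [Matrix.mulVec_add, hx, hy, smul_add]
    | smul c x _ hx => rw [Matrix.mulVec_smul, hx, smul_comm]
  obtain ⟨v, hv0, hv⟩ := exists_isEigenvector p κC
  have hz : Hecke.IsEigenvector κC (0 : CuspForm (Gamma0 p) 2) := fun t => by simp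
  have e1 := hscal _ ((mem_eigenspace_periodEquiv_iff p κC v 0).mpr ⟨hv, hz⟩)
  have e2 := hscal _ ((mem_eigenspace_periodEquiv_iff p κC 0 v).mpr ⟨hz, hv⟩)
  rw [parConjMat_mulVec_periodEquiv, ← map_smul] at e1 e2
  have f1 := congrArg Prod.fst ((periodEquiv p).injective e1)
  have f2 := congrArg Prod.snd ((periodEquiv p).injective e2)
  simp only [Prod.smul_fst, Prod.smul_snd] at f1 f2
  have g1 : (σ s₀ - 1) • v = 0 := by rw [sub_smul, one_smul, ← f1, sub_self]
  have g2 : (σ s₀ + 1) • v = 0 := by rw [add_smul, one_smul, ← f2, neg_add_cancel]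
  have h1' := (smul_eq_zero.mp g1).resolve_right hv0
  have h2' := (smul_eq_zero.mp g2).resolve_right hv0
  have : (2 : ℂ) = 0 := by linear_combination h2' - h1'
  norm_num at this

end Fermat.Agent.MazurStep.Global
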