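import Fermat.Agent.Kummer.Main
import Fermat.Agent.Periods.HeckePair
import Mathlib.Analysis.Calculus.Deriv.Star

/-!
# Complex conjugation on the meromorphic functions on the upper half plane

`conjMero f` is `z ↦ conj (f (- conj z))`.  It conjugates the coefficients of `q`-expansions and
turns the action of `γ` into the action of `diag(-1, 1) γ diag(-1, 1)`.
-/

set_option autoImplicit false

noncomputable section

open Filter Topology Complex
open UpperHalfPlane hiding I continuous_im im re
open scoped ComplexConjugate MatrixGroups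

namespace Fermat.Agent.MazurStep.Global

open Fermat.Agent.Kummer
open ModularCurve.Period (jConjSL)

/-- `z ↦ - conj z`. -/
def negConj (z : ℂ) : ℂ := -conj z

theorem negConj_negConj (z : ℂ) : negConj (negConj z) = z := by simp [negConj]

theorem negConj_mem {z : ℂ} (hz : z ∈ uhp) : negConj z ∈ uhp := by
  simpa [negConj] using hz

theorem continuous_negConj : Continuous negConj := continuous_conj.neg

theorem tendsto_negConj_nhdsNE (z : ℂ) : Tendsto negConj (𝓝[≠] z) (𝓝[≠] (negConj z)) := by
  refine tendsto_nhdsWithin_of_tendsto_nhds_of_eventually_within _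
    ((continuous_negConj.tendsto z).mono_left nhdsWithin_le_nhds) ?_
  filter_upwards [self_mem_nhdsWithin] with w hw h
  exact hw (by simpa [negConj_negConj] using congrArg negConj h)

theorem tendsto_negConj_uhpFilter : Tendsto negConj uhpFilter uhpFilter := by
  intro s hs
  change ∀ᶠ z in uhpFilter, negConj z ∈ s
  rw [eventually_uhpFilter_iff]
  exact fun z hz => (tendsto_negConj_nhdsNE z).eventually
    (nhdsNE_le_uhpFilter (negConj_mem hz) hs)

theorem analyticAt_conj_negConj {g : ℂ → ℂ} {z : ℂ} (hg : AnalyticAt ℂ g (negConj z)) :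
    AnalyticAt ℂ (fun w => conj (g (negConj w))) z := by
  rw [Complex.analyticAt_iff_eventually_differentiableAt] at hg ⊢
  filter_upwards [(continuous_negConj.tendsto z).eventually hg] with w hw
  have h2 : DifferentiableAt ℂ (fun u => g (-u)) (conj w) :=
    DifferentiableAt.comp (conj w) hw differentiableAt_id.neg
  have h3 := h2.conj_conj
  rw [Complex.conj_conj] at h3
  exact h3

theorem meromorphicAt_conj_negConj {f : ℂ → ℂ} {z : ℂ} (hf : MeromorphicAt f (negConj z)) :
    MeromorphicAt (fun w => conj (f (negConj w))) z := by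
  obtain ⟨n, hn⟩ := hf
  refine ⟨n, ?_⟩
  have h := (analyticAt_const (v := (-1 : ℂ) ^ n) (x := z)).fun_mul (analyticAt_conj_negConj hn)
  refine h.congr (Filter.Eventually.of_forall fun w => ?_)
  simp only [smul_eq_mul, map_mul, map_pow, negConj, map_sub, map_neg, Complex.conj_conj]
  rw [← mul_assoc, ← mul_pow]
  ring

/-- `f ↦ conj ∘ f ∘ (- conj)`. -/
def conjMero : MeroH →+* MeroH where
  toFun x := ⟨((MeroH.toGerm x).compTendsto negConj tendsto_negConj_uhpFilter).map conj, by
    obtain ⟨f, hf, rfl⟩ := MeroH.exists_rep x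
    exact ⟨fun w => conj (f (negConj w)),
      fun z hz => meromorphicAt_conj_negConj (hf _ (negConj_mem hz)), rfl⟩⟩
  map_one' := MeroH.toGerm_injective (congrArg (fun c : ℂ → ℂ => (c : Germ uhpFilter ℂ))
    (funext fun _ => map_one (starRingEnd ℂ)))
  map_zero' := MeroH.toGerm_injective (congrArg (fun c : ℂ → ℂ => (c : Germ uhpFilter ℂ))
    (funext fun _ => map_zero (starRingEnd ℂ)))
  map_mul' x y := by
    obtain ⟨f, hf, rfl⟩ := MeroH.exists_rep x
    obtain ⟨g, hg, rfl⟩ := MeroH.exists_rep y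
    exact MeroH.toGerm_injective (congrArg (fun c : ℂ → ℂ => (c : Germ uhpFilter ℂ))
      (funext fun _ => map_mul (starRingEnd ℂ) _ _))
  map_add' x y := by
    obtain ⟨f, hf, rfl⟩ := MeroH.exists_rep x
    obtain ⟨g, hg, rfl⟩ := MeroH.exists_rep y
    exact MeroH.toGerm_injective (congrArg (fun c : ℂ → ℂ => (c : Germ uhpFilter ℂ))
      (funext fun _ => map_add (starRingEnd ℂ) _ _))

theorem conjMero_mk {f : ℂ → ℂ} (hf : MeromorphicOn f uhp) :
    conjMero (MeroH.mk f hf) = MeroH.mk (fun w => conj (f (negConj w)))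
      (fun _ hz => meromorphicAt_conj_negConj (hf _ (negConj_mem hz))) := rfl

theorem conjMero_const (c : ℂ) : conjMero (MeroH.const c) = MeroH.const (conj c) := rfl

/-- Moving `diag(-1, 1)` through an element of `SL(2, ℤ)`. -/
theorem negConj_moeb_jConjSL (γ : SL(2, ℤ)) {z : ℂ} (hz : z ∈ uhp) :
    MeroH.moeb ((jConjSL γ : SL(2, ℤ)) : GL (Fin 2) ℝ) (negConj z)
      = negConj (MeroH.moeb (γ : GL (Fin 2) ℝ) z) := by
  have h1 : (⟨z, hz⟩ : ℍ) = ofComplex z := (ofComplex_apply_of_im_pos hz).symm
  have h2 : ofComplex (negConj z) = UpperHalfPlane.J • (⟨z, hz⟩ : ℍ) := by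
    rw [ofComplex_apply_of_im_pos (negConj_mem hz)]
    exact UpperHalfPlane.ext (coe_J_smul ⟨z, hz⟩).symm
  rw [MeroH.moeb, MeroH.moeb, h2, ← h1, negConj, ← coe_J_smul, ← mul_smul, ← mul_smul]
  congr 2
  have h := Fermat.Agent.Periods.J_conj_toGLR γ
  have h' : ((jConjSL γ : SL(2, ℤ)) : GL (Fin 2) ℝ)
      = UpperHalfPlane.J * (γ : GL (Fin 2) ℝ) * UpperHalfPlane.J := h.symm
  rw [h', mul_assoc, ← sq, J_sq, mul_one]

/-- Conjugation turns the action of `γ` into that of its conjugate by `diag(-1, 1)`. -/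
theorem conjMero_slComp (γ : SL(2, ℤ)) (x : MeroH) :
    conjMero (MeroH.slComp (jConjSL γ) x) = MeroH.slComp γ (conjMero x) := by
  obtain ⟨f, hf, rfl⟩ := MeroH.exists_rep x
  rw [conjMero_mk hf, MeroH.slComp_mk]
  refine (conjMero_mk _).trans ((MeroH.mk_congr _ _ fun z hz => ?_).trans
    (MeroH.slComp_mk γ _).symm)
  simp only [Function.comp_apply]
  rw [negConj_moeb_jConjSL γ hz]

/-! ### The modular invariant has real coefficients -/

theorem qParam_J_smul (τ : ℍ) :
    Function.Periodic.qParam 1 ((UpperHalfPlane.J • τ : ℍ) : ℂ)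
      = conj (Function.Periodic.qParam 1 (τ : ℂ)) := by
  rw [coe_J_smul, Function.Periodic.qParam, Function.Periodic.qParam, ← Complex.exp_conj]
  congr 1
  simp [Complex.conj_ofNat]

theorem apply_J_smul_of_real_coeff {f : ℍ → ℂ} {c : ℕ → ℂ} (hc : ∀ m, conj (c m) = c m)
    (hf : ∀ τ : ℍ, HasSum (fun m => c m * Function.Periodic.qParam 1 (τ : ℂ) ^ m) (f τ)) (τ : ℍ) :
    f (UpperHalfPlane.J • τ) = conj (f τ) := by
  refine (hf _).unique ?_
  have h := Complex.hasSum_conj'.2 (hf τ)
  refine h.congr_fun fun m => ?_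
  rw [map_mul, map_pow, hc, qParam_J_smul]

theorem E₄_J_smul (τ : ℍ) :
    ModularForm.E₄ (UpperHalfPlane.J • τ) = conj (ModularForm.E₄ τ) := by
  refine apply_J_smul_of_real_coeff (c := fun m => (qExpansion 1 ModularForm.E₄).coeff m) ?_
    (fun σ => ModularForm.hasSum_qExpansion _ one_pos one_mem_strictPeriods_SL σ) τ
  intro m
  rw [LevelOne.qExpansion_E₄, PowerSeries.coeff_map]
  exact map_intCast (starRingEnd ℂ) _

theorem discriminant_J_smul (τ : ℍ) :
    ModularForm.discriminant (UpperHalfPlane.J • τ) = conj (ModularForm.discriminant τ) := by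
  refine apply_J_smul_of_real_coeff
    (c := fun m => (qExpansion 1 ModularForm.discriminant).coeff m) ?_
    (fun σ => ModularForm.hasSum_qExpansion CuspForm.discriminant one_pos
      one_mem_strictPeriods_SL σ) τ
  intro m
  rw [LevelOne.qExpansion_discriminant, PowerSeries.coeff_map]
  exact map_intCast (starRingEnd ℂ) _

theorem jFun_J_smul (τ : ℍ) :
    LevelOne.jFun (UpperHalfPlane.J • τ) = conj (LevelOne.jFun τ) := by
  rw [LevelOne.jFun, LevelOne.jFun, E₄_J_smul, discriminant_J_smul, map_div₀, map_pow]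

/-- The functions `τ ↦ j (d τ)` are fixed by conjugation. -/
theorem conjMero_jScale (d : ℕ) (hd : 0 < d) :
    conjMero (MeroH.jScale d hd) = MeroH.jScale d hd := by
  rw [MeroH.jScale, MeroH.jMero, MeroH.ofHol, MeroH.intComp, MeroH.comp_mk]
  refine (conjMero_mk _).trans (MeroH.mk_congr _ _ fun z hz => ?_)
  simp only [Function.comp_apply]
  have hdz : ∀ w : ℂ, w ∈ uhp →
      MeroH.moeb (intGL !![(d : ℤ), 0; 0, 1] (MeroH.det_scale hd)) w = d * w := by
    intro w hw
    rw [MeroH.moeb_intGL _ hw]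
    simp
  rw [hdz z hz, hdz _ (negConj_mem hz)]
  have hm : (d : ℂ) * z ∈ uhp := by
    simp only [Set.mem_ofPred_eq, Complex.mul_im, Complex.natCast_re, Complex.natCast_im]
    have : 0 < z.im := hz
    have : (0 : ℝ) < d := by exact_mod_cast hd
    nlinarith
  have e : ofComplex ((d : ℂ) * negConj z) = UpperHalfPlane.J • ofComplex ((d : ℂ) * z) := by
    rw [ofComplex_apply_of_im_pos hm,
      show (d : ℂ) * negConj z = negConj ((d : ℂ) * z) by simp [negConj],
      ofComplex_apply_of_im_pos (negConj_mem hm)]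
    exact UpperHalfPlane.ext (coe_J_smul ⟨(d : ℂ) * z, hm⟩).symm
  rw [e, jFun_J_smul, Complex.conj_conj]

end Fermat.Agent.MazurStep.Global
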